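import Fermat.Agent.Corollaries.Refl.Main

/-!
# The even part of the class group of `ℚ(ζ_p)` and Bernoulli numbers

`A_k` is the `ω ^ k`-part of `Cl(ℚ(ζ_p))[p]`.

* `dvd_bernoulli_of_even`: `A_k ≠ 1`, `k` even, `2 ≤ k ≤ p - 3`: `p` divides the numerator of `B_k`;
* `dvd_bernoulli_of_eigen`: the same for every `k`, with `B_k` or `B_{p-k}`;
* `exists_dvd_bernoulli` (Kummer 1850): if `p` divides the class number of `ℚ(ζ_p)`, `p` divides
  the numerator of one of `B_2, B_4, …, B_{p-3}`.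
-/

set_option autoImplicit false

noncomputable section

namespace Fermat.Agent.Cor.Refl

open NumberField Finset
open Fermat.Agent.Cor.Cat Fermat.Agent.Cor.Stick

variable {p : ℕ} [hp : Fact p.Prime] {K : Type} [Field K] [NumberField K]
  [hcyc : IsCyclotomicExtension {p} ℚ K] {ζ : K}

/-- If the `ω ^ k`-part is not trivial, `k` even, then the `ω ^ (p - k)`-part is not trivial. -/
theorem exists_eigen_of_even (hζ : IsPrimitiveRoot ζ p) {k : ℕ} (hk : Even k) (hk2 : 2 ≤ k)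
    (hkp : k + 3 ≤ p) {C : ClassGroup (𝓞 K)} (hC1 : C ≠ 1) (hCp : C ^ p = 1)
    (hC : ∀ σ : K ≃ₐ[ℚ] K, gal σ C = C ^ (expo hζ σ ^ k)) :
    ∃ C' : ClassGroup (𝓞 K), C' ≠ 1 ∧ C' ^ p = 1 ∧
      ∀ σ : K ≃ₐ[ℚ] K, gal σ C' = C' ^ (expo hζ σ ^ (p - k)) := by
  by_contra h
  push Not at h
  have h1 := reflection hζ hk hk2 hkp
  have h2 : Nat.card {C : ClassGroup (𝓞 K) //
      C ^ p = 1 ∧ ∀ σ : K ≃ₐ[ℚ] K, gal σ C = C ^ (expo hζ σ ^ (p - k))} = 1 := by
    rw [Nat.card_eq_one_iff_unique]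
    refine ⟨⟨fun x y => Subtype.ext ?_⟩, ⟨⟨1, one_pow p, fun σ => by rw [map_one, one_pow]⟩⟩⟩
    have h3 : ∀ z : {C : ClassGroup (𝓞 K) //
      C ^ p = 1 ∧ ∀ σ : K ≃ₐ[ℚ] K, gal σ C = C ^ (expo hζ σ ^ (p - k))}, z.1 = 1 := by
      intro z
      by_contra hz
      obtain ⟨σ, hσ⟩ := h z.1 hz z.2.1
      exact hσ (z.2.2 σ)
    rw [h3 x, h3 y]
  rw [h2, ← not_lt] at h1
  apply h1
  rw [Finite.one_lt_card_iff_nontrivial]
  exact ⟨⟨1, one_pow p, fun σ => by rw [map_one, one_pow]⟩, ⟨C, hCp, hC⟩,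
    fun h3 => hC1 (congrArg Subtype.val h3).symm⟩

/-- **Herbrand's theorem for the even part**: `k` even, `2 ≤ k ≤ p - 3`.  If the `ω ^ k`-part of
the class group of `ℚ(ζ_p)` is not trivial, then `p` divides the numerator of `B_k`. -/
theorem dvd_bernoulli_of_even (hζ : IsPrimitiveRoot ζ p) {k : ℕ} (hk : Even k) (hk2 : 2 ≤ k)
    (hkp : k + 3 ≤ p) {C : ClassGroup (𝓞 K)} (hC1 : C ≠ 1) (hCp : C ^ p = 1)
    (hC : ∀ σ : K ≃ₐ[ℚ] K, gal σ C = C ^ (expo hζ σ ^ k)) :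
    (p : ℤ) ∣ (bernoulli k).num := by
  obtain ⟨C', h1, h2, h3⟩ := exists_eigen_of_even hζ hk hk2 hkp hC1 hCp hC
  have h4 := herbrand hζ (i := p - k) (by omega) (by omega) h1 h2 h3
  rwa [show p - (p - k) = k by omega] at h4

/-- A class of order `p` is not invariant. -/
theorem eq_one_of_invariant (hp2 : p ≠ 2) (hζ : IsPrimitiveRoot ζ p) {C : ClassGroup (𝓞 K)} (hCp : C ^ p = 1)
    (hC : ∀ σ : K ≃ₐ[ℚ] K, gal σ C = C) : C = 1 := by
  have h2 : ∏ σ : K ≃ₐ[ℚ] K, gal σ C = 1 := prod_gal hp2 hζ C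
  rw [Finset.prod_congr rfl fun σ _ => hC σ, Finset.prod_const, Finset.card_univ] at h2
  have hcard : Fintype.card (K ≃ₐ[ℚ] K) = p - 1 := by
    have h1 := sum_expo_inv hζ (fun _ => 1)
    rw [Finset.sum_const, Finset.sum_const, smul_eq_mul, smul_eq_mul, mul_one, mul_one,
      Finset.card_erase_of_mem (Finset.mem_range.mpr hp.out.pos), Finset.card_range,
      Finset.card_univ] at h1
    exact h1
  rw [hcard] at h2
  calc C = C ^ (p - 1) * C := by rw [h2, one_mul]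
    _ = 1 := by rw [← pow_succ, Nat.sub_add_cancel hp.out.one_lt.le, hCp]

/-- **Kummer's criterion**, one direction, without analysis: if `p` divides the class number of
`ℚ(ζ_p)`, then `p` divides the numerator of one of the Bernoulli numbers
`B_2, B_4, …, B_{p-3}`. -/
theorem exists_dvd_bernoulli (hp2 : p ≠ 2) (h : p ∣ classNumber K) :
    ∃ k, Even k ∧ 2 ≤ k ∧ k + 3 ≤ p ∧ (p : ℤ) ∣ (bernoulli k).num := by
  by_contra hreg
  push Not at hreg
  have hpo : p % 2 = 1 := (hp.out.eq_two_or_odd).resolve_left hp2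
  have hζ := IsCyclotomicExtension.zeta_spec p ℚ K
  obtain ⟨C, hC⟩ := exists_prime_orderOf_dvd_card (G := ClassGroup (𝓞 K)) p h
  have hCp : C ^ p = 1 := by rw [← hC, pow_orderOf_eq_one]
  have h1 : ∀ i ∈ range (p - 1), eig hζ i C = 1 := by
    intro i hi
    rw [mem_range] at hi
    rcases Nat.even_or_odd i with he | ho
    · rcases Nat.eq_zero_or_pos i with rfl | hi0
      · refine eq_one_of_invariant hp2 hζ (eig_pow hζ 0 hCp) fun σ => ?_
        rw [gal_eig hζ 0 hCp, pow_zero, pow_one]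
      · by_contra hne
        obtain ⟨j, rfl⟩ := he
        exact hreg (j + j) ⟨j, rfl⟩ (by omega) (by omega)
          (dvd_bernoulli_of_even hζ ⟨j, rfl⟩ (by omega) (by omega) hne (eig_pow hζ _ hCp)
            (gal_eig hζ _ hCp))
    rcases eq_or_ne i 1 with rfl | hi1
    · refine eq_one_of_eigen_one hp2 hζ (eig_pow hζ 1 hCp) fun σ => ?_
      rw [gal_eig hζ 1 hCp, pow_one]
    · by_contra hne
      have hi3 : 3 ≤ i := by
        obtain ⟨j, rfl⟩ := ho
        omega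
      have h2 := herbrand hζ hi3 (by omega) hne (eig_pow hζ i hCp) (gal_eig hζ i hCp)
      refine hreg (p - i) ?_ (by omega) (by omega) h2
      obtain ⟨j, rfl⟩ := ho
      exact ⟨(p - (2 * j + 1)) / 2, by omega⟩
  have h2 := prod_eig hζ hCp
  rw [Finset.prod_eq_one h1] at h2
  have h3 : C ^ p = C := by
    conv_lhs => rw [← Nat.sub_add_cancel hp.out.one_lt.le, pow_succ, ← h2, one_mul]
  rw [hCp] at h3
  rw [← h3, orderOf_one] at hC
  exact hp.out.one_lt.ne hC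

end Fermat.Agent.Cor.Refl
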