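import Fermat.Agent.Corollaries.Scholz.Hom

/-!
# Eigenspaces of a finite abelian group and of its characters

`Δ` a finite abelian group of order prime to `p` which acts on the finite abelian group `G`, `a` a
character of `Δ` modulo `p`.  The `a`-part of `G[p]` is not larger than the `a`-part of
`Hom(G, ℤ/p)` (`card_eigen_le`; they are equal).
-/

set_option autoImplicit false

namespace Fermat.Agent.Cor.Refl

open Finset

section

variable {p : ℕ} [hp : Fact p.Prime]

theorem pow_eq_pow_of_cast {G : Type*} [Group G] {x : G} (hx : x ^ p = 1) {a b : ℕ}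
    (h : (a : ZMod p) = b) : x ^ a = x ^ b := by
  rw [ZMod.natCast_eq_natCast_iff] at h
  exact pow_eq_pow_iff_modEq.mpr (h.of_dvd (orderOf_dvd_of_pow_eq_one hx))

/-- Teichmüller: congruences modulo `p` become congruences modulo `p ^ (n + 1)`. -/
theorem modEq_pow {x y : ℕ} (h : (x : ZMod p) = y) (n : ℕ) :
    x ^ p ^ n ≡ y ^ p ^ n [MOD p ^ (n + 1)] := by
  have h1 : (p : ℤ) ∣ (x : ℤ) - y := by
    exact (ZMod.intCast_eq_intCast_iff_dvd_sub (y : ℤ) (x : ℤ) p).mp (by exact_mod_cast h.symm)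
  have h2 := dvd_sub_pow_of_dvd_sub h1 n
  refine (Nat.modEq_iff_dvd.mpr ?_).symm
  push_cast
  exact h2

theorem pow_eq_of_modEq {G : Type*} [Group G] {x : G} {m a b : ℕ} (hx : x ^ m = 1)
    (h : a ≡ b [MOD m]) : x ^ a = x ^ b :=
  pow_eq_pow_iff_modEq.mpr (h.of_dvd (orderOf_dvd_of_pow_eq_one hx))

end

section

variable {p : ℕ} [hp : Fact p.Prime] {G : Type*} [CommGroup G] [Finite G] {Δ : Type*}
  [CommGroup Δ] [Fintype Δ] (act : Δ → G →* G) (act_mul : ∀ σ τ x, act (σ * τ) x = act σ (act τ x))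
  (act_one : ∀ x, act 1 x = x) {a : Δ → ℕ}
  (ha : ∀ σ τ, (a (σ * τ) : ZMod p) = a σ * a τ)

include act_mul act_one ha

/-- **The `a`-part of `G[p]` is not larger than the `a`-part of `Hom(G, ℤ/p)`.** -/
theorem card_eigen_le (hΔ : ¬ p ∣ Fintype.card Δ) :
    Nat.card {x : G // x ^ p = 1 ∧ ∀ σ, act σ x = x ^ a σ} ≤
      Nat.card {f : G →* Multiplicative (ZMod p) // ∀ σ x, f (act σ x) = f x ^ a σ} := by
  classical
  obtain ⟨n, M, hM, hcard⟩ := Nat.exists_eq_pow_mul_and_not_dvd (n := Nat.card G)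
    Nat.card_pos.ne' p hp.out.ne_one
  set w : Δ → ℕ := fun σ => a σ ^ p ^ n with hw
  have hww : ∀ σ τ, w (σ * τ) ≡ w σ * w τ [MOD p ^ (n + 1)] := by
    intro σ τ
    have h1 : ((a (σ * τ) : ℕ) : ZMod p) = ((a σ * a τ : ℕ) : ZMod p) := by
      rw [ha, Nat.cast_mul]
    have h2 := modEq_pow h1 n
    rwa [mul_pow] at h2
  have hwa : ∀ σ, (w σ : ZMod p) = a σ := by
    intro σ
    rw [hw]
    push_cast
    exact ZMod.pow_card_pow _
  have hcomm : ∀ σ τ x, act σ (act τ x) = act τ (act σ x) := by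
    intro σ τ x
    rw [← act_mul, ← act_mul, mul_comm]
  -- the `p`-part of the eigenspace
  let A : Subgroup G :=
    { carrier := {x | x ^ p ^ (n + 1) = 1 ∧ ∀ σ, act σ x = x ^ w σ}
      one_mem' := ⟨one_pow _, fun σ => by rw [map_one, one_pow]⟩
      mul_mem' := fun {x y} hx hy => ⟨by rw [mul_pow, hx.1, hy.1, one_mul], fun σ => by
        rw [map_mul, hx.2, hy.2, mul_pow]⟩
      inv_mem' := fun {x} hx => ⟨by rw [inv_pow, hx.1, inv_one], fun σ => by
        rw [map_inv, hx.2, inv_pow]⟩ }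
  have hAm : ∀ x, x ∈ A ↔ x ^ p ^ (n + 1) = 1 ∧ ∀ σ, act σ x = x ^ w σ := fun x => Iff.rfl
  let F : G →* G :=
    { toFun := fun x => ∏ σ : Δ, act σ⁻¹ (x ^ M) ^ w σ
      map_one' := by simp
      map_mul' := fun x y => by
        rw [← Finset.prod_mul_distrib]
        refine Finset.prod_congr rfl fun σ _ => ?_
        rw [mul_pow, map_mul, mul_pow] }
  have hF : ∀ x, F x = ∏ σ : Δ, act σ⁻¹ (x ^ M) ^ w σ := fun x => rfl
  have hxM : ∀ x : G, (x ^ M) ^ p ^ (n + 1) = 1 := by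
    intro x
    rw [← pow_mul, pow_succ, ← mul_assoc, mul_comm M, ← hcard, pow_mul, pow_card_eq_one', one_pow]
  have hactM : ∀ (x : G) σ, act σ (x ^ M) ^ p ^ (n + 1) = 1 := by
    intro x σ
    rw [← map_pow, hxM, map_one]
  have hFact : ∀ τ x, F (act τ x) = act τ (F x) := by
    intro τ x
    rw [hF, hF, map_prod]
    refine Finset.prod_congr rfl fun σ _ => ?_
    rw [map_pow (act τ) (act σ⁻¹ (x ^ M)) (w σ), hcomm τ σ⁻¹, map_pow (act τ) x M]
  have hFw : ∀ τ x, act τ (F x) = F x ^ w τ := by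
    intro τ x
    rw [hF, map_prod, ← Finset.prod_pow]
    refine Fintype.prod_equiv (Equiv.mulRight τ⁻¹) _ _ fun σ => ?_
    rw [Equiv.coe_mulRight, map_pow, ← act_mul, mul_inv_rev, inv_inv, ← pow_mul]
    refine pow_eq_of_modEq (hactM x _) ?_
    have h1 := hww (σ * τ⁻¹) τ
    rwa [inv_mul_cancel_right] at h1
  have hFA : ∀ x, F x ∈ A := by
    intro x
    refine (hAm _).mpr ⟨?_, fun τ => hFw τ x⟩
    rw [hF, ← Finset.prod_pow]
    refine Finset.prod_eq_one fun σ _ => ?_
    rw [← pow_mul, mul_comm, pow_mul, hactM, one_pow]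
  have hFc : ∀ x ∈ A, F x = x ^ (M * Fintype.card Δ) := by
    intro x hx
    have h1 : ∀ σ : Δ, act σ⁻¹ (x ^ M) ^ w σ = x ^ M := by
      intro σ
      have h2 : act σ⁻¹ (x ^ M) = (x ^ M) ^ w σ⁻¹ := by
        rw [map_pow, hx.2, ← pow_mul, ← pow_mul, mul_comm]
      rw [h2, ← pow_mul]
      have h3 := hww σ⁻¹ σ
      rw [inv_mul_cancel] at h3
      rw [← pow_eq_of_modEq (hxM x) h3, ← pow_mul, mul_comm, pow_mul, ← hx.2, act_one]
    rw [hF, Finset.prod_congr rfl fun σ _ => h1 σ, Finset.prod_const, Finset.card_univ, ← pow_mul]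
  let FA : G →* A := F.codRestrict A hFA
  have hFAc : ∀ x, ((FA x : A) : G) = F x := fun x => rfl
  have hCp : ∀ y : Multiplicative (ZMod p), y ^ p = 1 := by
    intro y
    apply Multiplicative.toAdd.injective
    rw [toAdd_pow, toAdd_one, nsmul_eq_mul, CharP.cast_eq_zero, zero_mul]
  -- the dual of `A`
  have h1 : Nat.card {x : G // x ^ p = 1 ∧ ∀ σ, act σ x = x ^ a σ} ≤
      Nat.card {c : A // c ^ p = 1} := by
    refine Nat.card_le_card_of_injective (fun x => ⟨⟨x.1, ?_, fun σ => ?_⟩, ?_⟩) ?_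
    · rw [pow_succ', pow_mul, x.2.1, one_pow]
    · rw [x.2.2 σ]
      exact pow_eq_pow_of_cast x.2.1 (hwa σ).symm
    · exact Subtype.ext x.2.1
    · intro x y h
      exact Subtype.ext (congrArg (fun z : {c : A // c ^ p = 1} => ((z : A) : G)) h)
  refine h1.trans ?_
  rw [← Scholz.card_hom]
  have hfin : Finite (G →* Multiplicative (ZMod p)) := by
    have : Finite (G → Multiplicative (ZMod p)) := inferInstance
    exact Finite.of_injective _ DFunLike.coe_injective
  refine Nat.card_le_card_of_injective (fun g => ⟨g.comp FA, fun τ x => ?_⟩) ?_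
  · have h2 : FA (act τ x) = FA x ^ w τ := by
      apply Subtype.ext
      rw [hFAc, Subgroup.coe_pow, hFAc, hFact, hFw]
    rw [MonoidHom.comp_apply, MonoidHom.comp_apply, h2, map_pow]
    exact pow_eq_pow_of_cast (hCp _) (hwa τ)
  · intro g g' h
    have h2 : g.comp FA = g'.comp FA := congrArg Subtype.val h
    refine MonoidHom.ext fun c => ?_
    have h3 := DFunLike.congr_fun h2 (c : G)
    have h4 : FA (c : G) = c ^ (M * Fintype.card Δ) := by
      apply Subtype.ext
      rw [hFAc, Subgroup.coe_pow, hFc _ c.2]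
    rw [MonoidHom.comp_apply, MonoidHom.comp_apply, h4, map_pow, map_pow] at h3
    have hcop : Nat.Coprime p (M * Fintype.card Δ) := by
      rw [hp.out.coprime_iff_not_dvd, hp.out.dvd_mul]
      exact not_or.mpr ⟨hM, hΔ⟩
    have h5 : (g c / g' c) ^ (M * Fintype.card Δ) = 1 := by rw [div_pow, h3, div_self']
    have h6 : orderOf (g c / g' c) ∣ 1 := by
      rw [← hcop]
      exact Nat.dvd_gcd (orderOf_dvd_of_pow_eq_one (hCp _)) (orderOf_dvd_of_pow_eq_one h5)
    exact div_eq_one.mp (orderOf_eq_one_iff.mp (Nat.dvd_one.mp h6))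

end

end Fermat.Agent.Cor.Refl
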