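import Fermat.Agent.Corollaries.Scholz.Reflect
import Fermat.Agent.Corollaries.CFTP.Tower
import Fermat.Agent.Corollaries.Stick.Minus

/-!
# Radicals of unramified Kummer extensions and the Galois group of `ℚ(ζ_p)`

`K` a number field, `ζ ∈ K` a primitive `p`-th root of unity, `p` odd.  `Rad ζ i χ b`: the
extension of `K` which class field theory attaches to the character `χ : Cl(K) → ℤ/p` is generated
by a `p`-th root `α` of `b`, and Frobenius at `v` multiplies `α` by `ζ ^ χ(v)`.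
-/

set_option autoImplicit false

noncomputable section

namespace Fermat.Agent.Cor.Refl

open IsDedekindDomain NumberField
open Fermat.Agent.Frob Fermat.Agent.FrobDensity Fermat.Agent.Minkowski
open Fermat.Agent.LT.Tower.Fr
open Fermat.Agent.Cor.Diff (GK FrobAt)
open Fermat.Agent.Cor.CFTP
open Fermat.Agent.Cor.Cat Fermat.Agent.Cor.Stick
open Fermat.Agent.CFT.SUnits (ord)
open scoped Pointwise

variable {p : ℕ} [hp : Fact p.Prime] {K : Type} [Field K] [NumberField K] {ζ : K}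
  {i : K →+* AlgebraicClosure ℚ}

/-- Powers of a root of unity with exponents in `ℤ/p`. -/
theorem pow_val_pow {M : Type*} [Monoid M] {z : M} (hz : z ^ p = 1) (a : C p) (n : ℕ) :
    z ^ (a ^ n).toAdd.val = (z ^ a.toAdd.val) ^ n := by
  induction n with
  | zero => rw [pow_zero, toAdd_one, ZMod.val_zero, pow_zero, pow_zero]
  | succ n ih => rw [pow_succ, ConvKum.pow_val_add hz, ih, pow_succ]

/-- `b` is a radical of the unramified extension of the character `χ` of the class group. -/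
def Rad (ζ : K) (i : K →+* AlgebraicClosure ℚ) (χ : ClassGroup (𝓞 K) →* C p) (b : Kˣ) : Prop :=
  ∃ (ψ : GK i →* C p) (α : AlgebraicClosure ℚ), Lev ψ ∧
    (∀ v, ∀ g : GK i, FrobAt g v → ψ g = χ (cl v)) ∧ α ^ p = i b ∧
    ∀ g : GK i, g.1 α = i ζ ^ (ψ g).toAdd.val * α

theorem exists_rad (hp2 : p ≠ 2) (hζ : IsPrimitiveRoot ζ p) (i : K →+* AlgebraicClosure ℚ)
    (χ : ClassGroup (𝓞 K) →* C p) :
    ∃ b : Kˣ, Rad ζ i χ b ∧ ∀ v : HeightOneSpectrum (𝓞 K), (p : ℤ) ∣ ord v b := by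
  obtain ⟨ψ, lψ, hu, hψ⟩ := Scholz.exists_hilbert hp2 i χ
  obtain ⟨α, hα0, hα⟩ := Scholz.exists_kummer_val hζ i ψ lψ
  have hz : i ζ ^ p = 1 := by rw [← map_pow, hζ.pow_eq_one, map_one]
  obtain ⟨b, hb⟩ := ConvKum.mem_range_of_fixed i (x := α ^ p) (fun g => by
    rw [map_pow, hα, mul_pow, ← pow_mul, mul_comm _ p, pow_mul, hz, one_pow, one_mul])
  have hb0 : b ≠ 0 := by
    rintro rfl
    rw [map_zero] at hb
    exact pow_ne_zero p hα0 hb.symm
  refine ⟨Units.mk0 b hb0, ⟨ψ, α, lψ, hψ, hb.symm, hα⟩, fun v => ?_⟩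
  refine Scholz.dvd_ord_of_fix hζ (j := i) (b := Units.mk0 b hb0) (β := α) hb.symm
    (fun V A hV g hg => ?_) v
  rw [hα, hu V A hV g hg, toAdd_one, ZMod.val_zero, pow_zero, one_mul]

namespace Rad

theorem pow (hζ : IsPrimitiveRoot ζ p) {χ : ClassGroup (𝓞 K) →* C p} {b : Kˣ}
    (h : Rad ζ i χ b) (n : ℕ) : Rad ζ i (χ ^ n) (b ^ n) := by
  obtain ⟨ψ, α, lψ, hψ, hαb, hα⟩ := h
  have hz : i ζ ^ p = 1 := by rw [← map_pow, hζ.pow_eq_one, map_one]
  refine ⟨ψ ^ n, α ^ n, lψ.pow n, fun v g hg => ?_, ?_, fun g => ?_⟩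
  · rw [MonoidHom.pow_apply, MonoidHom.pow_apply, hψ v g hg]
  · rw [← pow_mul, mul_comm, pow_mul, hαb, Units.val_pow_eq_pow_val, map_pow]
  · rw [map_pow, hα, mul_pow, MonoidHom.pow_apply, pow_val_pow hz]

theorem ne_zero {χ : ClassGroup (𝓞 K) →* C p} {b : Kˣ} {α : AlgebraicClosure ℚ}
    (h : α ^ p = i b) : α ≠ 0 := by
  rintro rfl
  rw [zero_pow hp.out.ne_zero] at h
  exact b.ne_zero (i.injective (by rw [← h, map_zero]))

/-- A character determines its radical up to `p`-th powers. -/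
theorem unique {χ : ClassGroup (𝓞 K) →* C p} {b b' : Kˣ}
    (h : Rad ζ i χ b) (h' : Rad ζ i χ b') : ∃ c : Kˣ, b' = b * c ^ p := by
  obtain ⟨ψ, α, lψ, hψ, hαb, hα⟩ := h
  obtain ⟨ψ', α', lψ', hψ', hαb', hα'⟩ := h'
  have e : ψ = ψ' := eq_of_exact (η := eta χ) lψ lψ' ⟨∅, fun v _ g hg => hψ v g hg⟩
    ⟨∅, fun v _ g hg => hψ' v g hg⟩
  subst e
  have hα0 : α ≠ 0 := ne_zero (χ := χ) hαb
  have hα0' : α' ≠ 0 := ne_zero (χ := χ) hαb'
  obtain ⟨c, hc⟩ := ConvKum.mem_range_of_fixed i (x := α' / α) (fun g => by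
    rw [map_div₀, hα, hα']
    have hz0 : i ζ ^ (ψ g).toAdd.val ≠ 0 := by
      intro h0
      have h1 := hα g
      rw [h0, zero_mul] at h1
      exact hα0 ((map_eq_zero g.1).mp h1)
    rw [mul_div_mul_left _ _ hz0])
  have hc0 : c ≠ 0 := by
    rintro rfl
    rw [map_zero] at hc
    exact div_ne_zero hα0' hα0 hc.symm
  refine ⟨Units.mk0 c hc0, Units.ext (i.injective ?_)⟩
  rw [Units.val_mul, Units.val_pow_eq_pow_val, Units.val_mk0, map_mul, map_pow, hc, ← hαb, ← hαb',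
    ← mul_pow, mul_div_cancel₀ _ hα0]

/-- A radical determines its character. -/
theorem inj (hζ : IsPrimitiveRoot ζ p) {χ χ' : ClassGroup (𝓞 K) →* C p} {b b' c : Kˣ}
    (h : Rad ζ i χ b) (h' : Rad ζ i χ' b') (hc : b' = b * c ^ p) : χ = χ' := by
  obtain ⟨ψ, α, lψ, hψ, hαb, hα⟩ := h
  obtain ⟨ψ', α', lψ', hψ', hαb', hα'⟩ := h'
  have hα0 : α ≠ 0 := ne_zero (χ := χ) hαb
  have hα0' : α' ≠ 0 := ne_zero (χ := χ) hαb'
  have hz : IsPrimitiveRoot (i ζ) p := hζ.map_of_injective i.injective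
  have hc0 : i c ≠ 0 := (map_ne_zero i).mpr c.ne_zero
  have h1 : (α' / (α * i c)) ^ p = 1 := by
    rw [div_pow, mul_pow, hαb, hαb', hc, Units.val_mul, Units.val_pow_eq_pow_val, map_mul, map_pow,
      div_self]
    exact mul_ne_zero ((map_ne_zero i).mpr b.ne_zero) (pow_ne_zero _ hc0)
  obtain ⟨m, -, hm⟩ := hz.eq_pow_of_pow_eq_one h1
  have h2 : α' = i ζ ^ m * i c * α := by
    rw [hm]
    field_simp
  have key : ∀ g : GK i, ψ g = ψ' g := by
    intro g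
    have h3 := hα' g
    rw [h2, map_mul, map_mul, map_pow, g.2 ζ, g.2 c, hα] at h3
    have h4 : i ζ ^ (ψ g).toAdd.val = i ζ ^ (ψ' g).toAdd.val := by
      have h5 : i ζ ^ m * i c * α ≠ 0 := h2 ▸ hα0'
      refine mul_right_cancel₀ h5 ?_
      rw [← h3]
      ring
    exact Multiplicative.toAdd.injective
      (ZMod.val_injective p (hz.pow_inj (ZMod.val_lt _) (ZMod.val_lt _) h4))
  have h7 : χ * χ'⁻¹ = 1 := by
    refine eq_one_of_forall _ ∅ fun v _ => ?_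
    obtain ⟨g, hg'⟩ := exists_frobAt_all i v
    rw [MonoidHom.mul_apply, MonoidHom.inv_apply, ← hψ v g hg', ← hψ' v g hg', key,
      mul_inv_cancel]
  exact mul_inv_eq_one.mp h7

end Rad

/-- An automorphism of `K` extends to `ℚ̄`. -/
theorem exists_lift (i : K →+* AlgebraicClosure ℚ) (σ : K ≃ₐ[ℚ] K) :
    ∃ s : GQ, ∀ x, s (i x) = i (σ x) := by
  let _ : Algebra K (AlgebraicClosure ℚ) := i.toAlgebra
  have : IsScalarTower ℚ K (AlgebraicClosure ℚ) :=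
    IsScalarTower.of_algebraMap_eq' (RingHom.ext fun x => by simp)
  exact ⟨σ.liftNormal (AlgebraicClosure ℚ), fun x => σ.liftNormal_commutes _ x⟩

theorem cl_conj (σ : K ≃ₐ[ℚ] K) (v : HeightOneSpectrum (𝓞 K)) :
    cl (Fermat.Agent.CFT.Places.conj σ v) = gal σ (cl v) := by
  rw [cl, cl, gal_mk0]
  congr 1
  apply Subtype.ext
  change (Fermat.Agent.CFT.Places.conj σ v).asIdeal =
    v.asIdeal.map (RingOfIntegers.mapRingEquiv σ.toRingEquiv : 𝓞 K ≃+* 𝓞 K)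
  ext x
  rw [Fermat.Agent.CFT.Places.mem_conj]
  constructor
  · intro h
    have := Ideal.mem_map_of_mem (RingOfIntegers.mapRingEquiv σ.toRingEquiv : 𝓞 K ≃+* 𝓞 K) h
    rwa [RingEquiv.apply_symm_apply] at this
  · intro h
    rw [Ideal.mem_map_of_equiv] at h
    obtain ⟨y, hy, rfl⟩ := h
    rwa [RingEquiv.symm_apply_apply]

namespace Rad

variable [IsGalois ℚ K]

/-- The Galois action on radicals. -/
theorem gal (hζ : IsPrimitiveRoot ζ p) {χ : ClassGroup (𝓞 K) →* C p} {b : Kˣ}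
    (h : Rad ζ i χ b) (σ : K ≃ₐ[ℚ] K) :
    Rad ζ i ((χ.comp (Stick.gal σ⁻¹ : ClassGroup (𝓞 K) ≃* ClassGroup (𝓞 K)).toMonoidHom) ^
      expo hζ σ) (Units.map (σ : K →* K) b) := by
  obtain ⟨ψ, α, lψ, hψ, hαb, hα⟩ := h
  have hz : i ζ ^ p = 1 := by rw [← map_pow, hζ.pow_eq_one, map_one]
  obtain ⟨s, hs⟩ := exists_lift i σ
  have hsinv : ∀ x, s⁻¹ (i x) = i (σ⁻¹ x) := by
    intro x
    have h1 := hs (σ⁻¹ x)
    have h2 : σ (σ⁻¹ x) = x := σ.apply_symm_apply x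
    rw [h2] at h1
    rw [← h1]
    exact s.symm_apply_apply _
  have hs' : s⁻¹ ∈ GK (i.comp (algebraMap ℚ K)) := fun x => by
    rw [RingHom.comp_apply, hsinv, AlgEquiv.commutes]
  refine ⟨(ψ.comp (conjHom i hs')) ^ expo hζ σ, s α, (lψ.conj hs').pow _, fun v g hg => ?_, ?_,
    fun g => ?_⟩
  · obtain ⟨A, hA, hF⟩ := hg
    have hu : (Fermat.Agent.CFT.Places.conj σ⁻¹ v).under (𝓞 ℚ) = v.under (𝓞 ℚ) :=
      Fermat.Agent.CFT.Places.below_conj σ⁻¹ v
    rw [MonoidHom.pow_apply, MonoidHom.pow_apply]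
    congr 1
    have h1 : ψ (conjHom i hs' g) = χ (cl (Fermat.Agent.CFT.Places.conj σ⁻¹ v)) := by
      refine hψ _ (conjHom i hs' g) ⟨s⁻¹ • A, Over.conj hA σ⁻¹ hsinv, ?_⟩
      rw [absNorm_eq_of_under_eq (K := ℚ) hu]
      exact isFrobeniusAt_conj hF
    rw [cl_conj] at h1
    exact h1
  · rw [← map_pow, hαb, hs]
    rfl
  · have h1 : g.1 (s α) = s ((conjHom i hs' g).1 α) := by
      rw [coe_conjHom]
      change g.1 (s α) = s (s⁻¹ (g.1 (s⁻¹⁻¹ α)))
      rw [inv_inv]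
      exact (s.apply_symm_apply _).symm
    rw [h1, hα, map_mul, map_pow, hs, ← pow_expo hζ σ, map_pow, MonoidHom.pow_apply,
      pow_val_pow hz, MonoidHom.comp_apply, ← pow_mul, ← pow_mul, mul_comm (expo hζ σ)]

end Rad

end Fermat.Agent.Cor.Refl
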