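import Fermat.Agent.Corollaries.Kum.Gen
import Fermat.Agent.Corollaries.Stick.Minus

/-!
# The odd part of the units of `ℚ(ζ_p)` modulo `p`-th powers

A unit `u` of `K = ℚ(ζ_p)` with `σ_a(u) ≡ u ^ (a ^ j)` modulo `p`-th powers for all `a`, where `j` is
odd, `3 ≤ j ≤ p - 2`, is a `p`-th power (`eq_pow_of_eigen`).
-/

set_option autoImplicit false

noncomputable section

namespace Fermat.Agent.Cor.Refl

open NumberField NumberField.IsCMField Finset Fermat.Agent.Cor.Cat Fermat.Agent.Cor.Stick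

variable {p : ℕ} [hp : Fact p.Prime] {K : Type*} [Field K] [NumberField K] {ζ : K}

/-- the group `Kˣ` modulo `p`-th powers -/
def Qt (p : ℕ) (K : Type*) [Field K] : Type _ := Kˣ ⧸ (powMonoidHom p : Kˣ →* Kˣ).range

instance {K : Type*} [Field K] : CommGroup (Qt p K) :=
  inferInstanceAs (CommGroup (Kˣ ⧸ (powMonoidHom p : Kˣ →* Kˣ).range))

/-- the class modulo `p`-th powers -/
def qt (p : ℕ) {K : Type*} [Field K] (x : Kˣ) : Qt p K :=
  (QuotientGroup.mk x : Kˣ ⧸ (powMonoidHom p : Kˣ →* Kˣ).range)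

omit hp [NumberField K] in
theorem qt_mul (x y : Kˣ) : qt p (x * y) = qt p x * qt p y := rfl

omit hp [NumberField K] in
theorem qt_pow (x : Kˣ) (n : ℕ) : qt p (x ^ n) = qt p x ^ n := rfl

omit hp [NumberField K] in
theorem qt_pow_p (x : Kˣ) : qt p x ^ p = 1 := by
  rw [← qt_pow]
  exact (QuotientGroup.eq_one_iff _).mpr ⟨x, rfl⟩

omit hp [NumberField K] in
theorem qt_mul_pow (x c : Kˣ) : qt p (x * c ^ p) = qt p x := by
  rw [qt_mul, qt_pow, qt_pow_p, mul_one]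

omit hp [NumberField K] in
theorem qt_eq_one {x : Kˣ} : qt p x = 1 ↔ ∃ c : Kˣ, x = c ^ p := by
  refine (QuotientGroup.eq_one_iff (N := (powMonoidHom p : Kˣ →* Kˣ).range) x).trans ?_
  exact ⟨fun ⟨c, hc⟩ => ⟨c, hc.symm⟩, fun ⟨c, hc⟩ => ⟨c, hc.symm⟩⟩

omit hp [NumberField K] in
theorem qt_eq {x y : Kˣ} : qt p x = qt p y ↔ ∃ c : Kˣ, y = x * c ^ p := by
  refine (QuotientGroup.eq (s := (powMonoidHom p : Kˣ →* Kˣ).range) (a := x) (b := y)).trans ?_
  constructor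
  · rintro ⟨c, hc⟩
    refine ⟨c, ?_⟩
    have hc' : c ^ p = x⁻¹ * y := hc
    rw [hc', mul_inv_cancel_left]
  · rintro ⟨c, rfl⟩
    exact ⟨c, by rw [powMonoidHom_apply, inv_mul_cancel_left]⟩

theorem eq_one_of_pow_eq {G : Type*} [Group G] {x : G} (hx : x ^ p = 1) {a b : ℕ}
    (h : x ^ a = x ^ b) (hab : (a : ZMod p) ≠ b) : x = 1 := by
  by_contra hne
  have h1 : orderOf x = p := orderOf_eq_prime hx hne
  have h2 := pow_eq_pow_iff_modEq.mp h
  rw [h1] at h2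
  exact hab ((ZMod.natCast_eq_natCast_iff _ _ _).mpr h2)

/-- the action of an automorphism on `Kˣ` -/
def mp (σ : K ≃ₐ[ℚ] K) : Kˣ →* Kˣ := Units.map (σ : K →* K)

theorem coe_mp (σ : K ≃ₐ[ℚ] K) (x : Kˣ) : ((mp σ x : Kˣ) : K) = σ (x : K) := rfl

section

variable [hcyc : IsCyclotomicExtension {p} ℚ K]

theorem exists_expo (hζ : IsPrimitiveRoot ζ p) {n : ℕ} (h0 : (n : ZMod p) ≠ 0) :
    ∃ σ : K ≃ₐ[ℚ] K, (expo hζ σ : ZMod p) = n := by
  classical
  have h1 := sum_expo_inv hζ (fun a => if a = n % p then 1 else 0)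
  have h2 : n % p ∈ (range p).erase 0 := by
    rw [mem_erase, mem_range]
    refine ⟨fun h => h0 ?_, Nat.mod_lt _ hp.out.pos⟩
    rw [ZMod.natCast_eq_zero_iff]
    exact Nat.dvd_of_mod_eq_zero h
  rw [Finset.sum_ite_eq', if_pos h2] at h1
  obtain ⟨σ, -, hσ⟩ := Finset.exists_ne_zero_of_sum_ne_zero (by rw [h1]; exact one_ne_zero)
  have h3 : expo hζ σ⁻¹ = n % p := by
    by_contra h
    exact hσ (if_neg h)
  exact ⟨σ⁻¹, by rw [h3, ZMod.natCast_mod]⟩

/-- **The `ω ^ j`-part of the units modulo `p`-th powers is trivial for `j` odd, `j ≠ 1`.** -/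
theorem eq_pow_of_eigen (hp2 : p ≠ 2) [IsCMField K] (hζ : IsPrimitiveRoot ζ p) {j : ℕ}
    (hj : Odd j) (hj3 : 3 ≤ j) (hjp : j + 2 ≤ p) {u : (𝓞 K)ˣ} {u' : Kˣ} (hu' : (u' : K) = u)
    (hu : ∀ σ : K ≃ₐ[ℚ] K, qt p (mp σ u') = qt p u' ^ (expo hζ σ ^ j)) : qt p u' = 1 := by
  -- complex conjugation
  set J : K ≃ₐ[ℚ] K := (complexConj K).restrictScalars ℚ with hJd
  have hJc : ∀ x, J x = complexConj K x := fun x => rfl
  have hJζ : J ζ = ζ⁻¹ := by
    rw [hJc]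
    exact eq_inv_of_mul_eq_one_left (Kum.complexConj_root hζ.pow_eq_one)
  have hJ : (expo hζ J : ZMod p) = -1 := by
    obtain ⟨J', hJ', hJ'e⟩ := Stick.exists_conj hζ
    have h1 : expo hζ J = expo hζ J' := by
      refine hζ.pow_inj (expo_lt hζ J) (expo_lt hζ J') ?_
      rw [pow_expo, pow_expo, hJζ, hJ']
    rw [h1, hJ'e]
  have h1 : qt p (u' * mp J u') = 1 := by
    rw [qt_mul, hu J]
    have h2 : qt p u' * qt p u' ^ (expo hζ J ^ j) = qt p u' ^ (1 + expo hζ J ^ j) := by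
      rw [pow_add, pow_one]
    rw [h2, pow_eq_pow_of_cast (qt_pow_p u') (b := 0), pow_zero]
    push_cast
    rw [hJ, hj.neg_one_pow]
    ring
  obtain ⟨w, hw⟩ := qt_eq_one.mp h1
  have hw' : (u : K) * complexConj K (u : K) = (w : K) ^ p := by
    have h2 := congrArg (Units.val : Kˣ → K) hw
    rw [Units.val_mul, Units.val_pow_eq_pow_val] at h2
    rw [← h2, hu']
    congr 1
    change _ = J (u' : K)
    rw [hu', hJc]
  obtain ⟨s, t, hs0, hst, ht⟩ := Kum.unit_lemma p hp2 u hw'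
  have ht0 : t ≠ 0 := by
    rintro rfl
    rw [mul_zero] at hst
    rw [← hu'] at hst
    exact u'.ne_zero hst
  set t' : Kˣ := Units.mk0 t ht0 with ht'
  set s' : Kˣ := Units.mk0 s hs0 with hs'
  have hut : u' = t' * s' ^ p := by
    apply Units.ext
    rw [Units.val_mul, Units.val_pow_eq_pow_val, hu', hst, mul_comm]
    rfl
  have hqut : qt p u' = qt p t' := by rw [hut, qt_mul_pow]
  -- a primitive root
  obtain ⟨c, hc, hck⟩ := exists_primitive_root (p := p)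
  have hc0 : (c : ZMod p) ≠ 0 := fun h => hc ((ZMod.natCast_eq_zero_iff _ _).mp h)
  obtain ⟨σ, hσ⟩ := exists_expo hζ hc0
  have h2 : qt p (mp σ t') = qt p t' ^ (expo hζ σ ^ j) := by
    rw [← hqut, ← hu σ, hut, map_mul, map_pow, qt_mul_pow]
  -- `t ^ 2` is a `p`-th root of unity
  have h3 : σ (t ^ 2) = (t ^ 2) ^ expo hζ σ := by
    obtain ⟨m, -, hm⟩ := hζ.eq_pow_of_pow_eq_one (ξ := t ^ 2) (by rw [← pow_mul, ht])
    rw [← hm, map_pow, ← pow_expo hζ σ, ← pow_mul, ← pow_mul, mul_comm]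
  have h4 : mp σ (t' ^ 2) = (t' ^ 2) ^ expo hζ σ := by
    apply Units.ext
    rw [Units.val_pow_eq_pow_val, Units.val_pow_eq_pow_val]
    exact h3
  have h5 : qt p t' ^ (2 * expo hζ σ ^ j) = qt p t' ^ (2 * expo hζ σ) := by
    rw [mul_comm, pow_mul, ← h2, pow_mul, ← qt_pow, ← qt_pow, ← qt_pow, ← h4, map_pow]
  rw [hqut]
  refine eq_one_of_pow_eq (qt_pow_p t') h5 ?_
  push_cast
  rw [hσ]
  intro h6
  have h20 : (2 : ZMod p) ≠ 0 := by
    intro h
    have h7 : ((2 : ℕ) : ZMod p) = 0 := by exact_mod_cast h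
    rw [ZMod.natCast_eq_zero_iff] at h7
    exact hp2 ((Nat.prime_dvd_prime_iff_eq hp.out Nat.prime_two).mp h7)
  have h7 := mul_left_cancel₀ h20 h6
  refine hck (j - 1) (by omega) (by omega) ?_
  have h8 : (c : ZMod p) ^ (j - 1) = 1 := by
    refine mul_right_cancel₀ hc0 ?_
    rw [← pow_succ, Nat.sub_add_cancel (by omega), h7, one_mul]
  rw [← ZMod.intCast_zmod_eq_zero_iff_dvd]
  push_cast
  rw [h8, sub_self]

end

end Fermat.Agent.Cor.Refl
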