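import Fermat.Agent.Corollaries.Refl.Group
import Fermat.Agent.Corollaries.Refl.Rad
import Fermat.Agent.Corollaries.Refl.Unit
import Fermat.Agent.Corollaries.Ambi.Defs

/-!
# Leopoldt's reflection theorem for `ℚ(ζ_p)`

`A = Cl(ℚ(ζ_p))[p]`, `A_k` the subgroup on which `σ_a` acts as `C ↦ C ^ (a ^ k)`.

* `reflection`: `#A_k ≤ #A_{p-k}` for `k` even, `2 ≤ k ≤ p - 3`;
* `dvd_bernoulli_of_even`: if `A_k ≠ 1`, `k` even, then `p` divides the numerator of `B_k`;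
* `exists_dvd_bernoulli` (Kummer): if `p` divides the class number of `ℚ(ζ_p)`, then `p` divides
  the numerator of one of `B_2, B_4, …, B_{p-3}`.
-/

set_option autoImplicit false

noncomputable section

namespace Fermat.Agent.Cor.Refl

open IsDedekindDomain NumberField
open Fermat.Agent.Cor.CFTP
open Fermat.Agent.Cor.Cat Fermat.Agent.Cor.Stick
open Fermat.Agent.Cor.Ambi (actD actD_apply actD_div)
open Fermat.Agent.CFT Fermat.Agent.CFT.SUnits

variable {p : ℕ} [hp : Fact p.Prime] {K : Type} [Field K] [NumberField K] {ζ : K}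

theorem cl_smul (σ : K ≃ₐ[ℚ] K) (v : HeightOneSpectrum (𝓞 K)) : cl (σ • v) = gal σ (cl v) := by
  rw [cl, cl, gal_mk0]
  congr 1

theorem classOf_actD (σ : K ≃ₐ[ℚ] K) (D : HeightOneSpectrum (𝓞 K) →₀ ℤ) :
    classOf (Multiplicative.ofAdd (actD (K := ℚ) σ D)) =
      gal σ (classOf (Multiplicative.ofAdd D)) := by
  induction D using Finsupp.induction_linear with
  | zero => rw [map_zero, ofAdd_zero, map_one, map_one]
  | add D E hD hE => rw [map_add, ofAdd_add, map_mul, hD, hE, ofAdd_add, map_mul, map_mul]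
  | single v m =>
    have h : actD (K := ℚ) σ (Finsupp.single v m) = Finsupp.single (σ • v) m :=
      Finsupp.mapDomain_single
    rw [h, classOf_single, classOf_single, cl_smul, map_zpow]

omit hp in
theorem exists_root {b : Kˣ} (h : ∀ v : HeightOneSpectrum (𝓞 K), (p : ℤ) ∣ ord v b) :
    ∃ D : HeightOneSpectrum (𝓞 K) →₀ ℤ, div b = p • D := by
  refine ⟨(div b).mapRange (fun n => n / p) (by simp), ?_⟩
  ext v
  rw [div_apply, Finsupp.smul_apply, Finsupp.mapRange_apply, div_apply, nsmul_eq_mul,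
    Int.mul_ediv_cancel' (h v)]

omit [NumberField K] in
theorem nsmul_cancel {D E : HeightOneSpectrum (𝓞 K) →₀ ℤ} (h : p • D = p • E) : D = E := by
  ext v
  have h1 := DFunLike.congr_fun h v
  rw [Finsupp.smul_apply, Finsupp.smul_apply, nsmul_eq_mul, nsmul_eq_mul] at h1
  exact mul_left_cancel₀ (by exact_mod_cast hp.out.ne_zero) h1

omit hp in
theorem pow_classOf {b : Kˣ} {D : HeightOneSpectrum (𝓞 K) →₀ ℤ} (h : div b = p • D) :
    classOf (Multiplicative.ofAdd D) ^ p = 1 := by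
  rw [← map_pow, ← ofAdd_nsmul, ← h]
  exact (classOf_eq_one_iff _).mpr ⟨b, rfl⟩

section

variable [hcyc : IsCyclotomicExtension {p} ℚ K]

/-- The radicals of the characters of type `k` are of type `1 - k`. -/
theorem qt_mp {i : K →+* AlgebraicClosure ℚ} (hζ : IsPrimitiveRoot ζ p) {k : ℕ} (hkp : k ≤ p)
    {χ : ClassGroup (𝓞 K) →* C p}
    (hχ : ∀ (σ : K ≃ₐ[ℚ] K) x, χ (gal σ x) = χ x ^ (expo hζ σ ^ k)) {b : Kˣ}
    (h : Rad ζ i χ b) (σ : K ≃ₐ[ℚ] K) :
    qt p (mp σ b) = qt p b ^ (expo hζ σ ^ (p - k)) := by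
  have : IsGalois ℚ K := IsCyclotomicExtension.isGalois {p} ℚ K
  have h1 := h.gal hζ σ
  have h2 : (χ.comp (Stick.gal σ⁻¹ : ClassGroup (𝓞 K) ≃* ClassGroup (𝓞 K)).toMonoidHom) ^
      expo hζ σ = χ ^ (expo hζ σ ^ (p - k)) := by
    refine MonoidHom.ext fun x => ?_
    rw [MonoidHom.pow_apply, MonoidHom.pow_apply]
    change χ (gal σ⁻¹ x) ^ expo hζ σ = _
    rw [hχ, ← pow_mul]
    refine pow_eq_pow_of_cast (C.pow_p _) ?_
    push_cast
    have h3 := expo_mul_expo_inv hζ σ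
    calc (expo hζ σ⁻¹ : ZMod p) ^ k * (expo hζ σ : ZMod p)
        = (expo hζ σ⁻¹ : ZMod p) ^ k * (expo hζ σ : ZMod p) ^ p := by rw [ZMod.pow_card]
      _ = (expo hζ σ⁻¹ : ZMod p) ^ k * ((expo hζ σ : ZMod p) ^ (p - k) *
          (expo hζ σ : ZMod p) ^ k) := by rw [← pow_add, Nat.sub_add_cancel hkp]
      _ = (expo hζ σ : ZMod p) ^ (p - k) *
          ((expo hζ σ : ZMod p) * (expo hζ σ⁻¹ : ZMod p)) ^ k := by ring
      _ = (expo hζ σ : ZMod p) ^ (p - k) := by rw [h3, one_pow, mul_one]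
  rw [h2] at h1
  obtain ⟨c, hc⟩ := (h.pow hζ (expo hζ σ ^ (p - k))).unique h1
  have h4 : mp σ b = b ^ (expo hζ σ ^ (p - k)) * c ^ p := hc
  rw [h4, qt_mul_pow, qt_pow]

omit hcyc in
/-- The class of the radical ideal is in the same eigenspace as the radical. -/
theorem gal_classOf {b : Kˣ} {D : HeightOneSpectrum (𝓞 K) →₀ ℤ}
    (h : div b = p • D) {σ : K ≃ₐ[ℚ] K} {n : ℕ} (hb : qt p (mp σ b) = qt p b ^ n) :
    gal σ (classOf (Multiplicative.ofAdd D)) = classOf (Multiplicative.ofAdd D) ^ n := by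
  rw [← qt_pow] at hb
  obtain ⟨c, hc⟩ := qt_eq.mp hb.symm
  have h1 : actD (K := ℚ) σ (div b) = div (mp σ b) := actD_div σ b
  rw [hc, SUnits.div_mul, SUnits.div_pow, SUnits.div_pow, h, map_nsmul, smul_comm n p, ← nsmul_add] at h1
  have h2 := nsmul_cancel h1
  rw [← classOf_actD, h2, ofAdd_add, map_mul, ofAdd_nsmul, map_pow,
    (classOf_eq_one_iff (Multiplicative.ofAdd (div c))).mpr ⟨c, rfl⟩, mul_one]

/-- **Leopoldt's reflection theorem** (1958) for `ℚ(ζ_p)`: `k` even, `2 ≤ k ≤ p - 3`: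
`#Cl[p]_(ω^k) ≤ #Cl[p]_(ω^(p-k))`. -/
theorem reflection (hζ : IsPrimitiveRoot ζ p) {k : ℕ} (hk : Even k) (hk2 : 2 ≤ k)
    (hkp : k + 3 ≤ p) :
    Nat.card {C : ClassGroup (𝓞 K) //
        C ^ p = 1 ∧ ∀ σ : K ≃ₐ[ℚ] K, gal σ C = C ^ (expo hζ σ ^ k)} ≤
      Nat.card {C : ClassGroup (𝓞 K) //
        C ^ p = 1 ∧ ∀ σ : K ≃ₐ[ℚ] K, gal σ C = C ^ (expo hζ σ ^ (p - k))} := by
  classical
  have hp2 : p ≠ 2 := by omega
  have hpodd := hp.out.odd_of_ne_two hp2
  have hj : Odd (p - k) := Nat.Odd.sub_even (by omega) hpodd hk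
  have hCM : IsCMField K := IsCyclotomicExtension.Rat.isCMField K (S := {p}) ⟨p, rfl, by omega⟩
  have hcard : Fintype.card (K ≃ₐ[ℚ] K) = p - 1 := by
    have h1 := sum_expo_inv hζ (fun _ => 1)
    rw [Finset.sum_const, Finset.sum_const, smul_eq_mul, smul_eq_mul, mul_one, mul_one,
      Finset.card_erase_of_mem (Finset.mem_range.mpr hp.out.pos), Finset.card_range,
      Finset.card_univ] at h1
    exact h1
  let _ : CommGroup (K ≃ₐ[ℚ] K) :=
    { (inferInstance : Group (K ≃ₐ[ℚ] K)) with mul_comm := mul_comm_gal hζ }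
  refine (card_eigen_le (p := p) (fun σ : K ≃ₐ[ℚ] K => (gal σ).toMonoidHom)
    (fun σ τ x => gal_mul σ τ x) (fun x => gal_one x) (a := fun σ => expo hζ σ ^ k)
    (fun σ τ => ?_) (by
      rw [hcard]
      exact Nat.not_dvd_of_pos_of_lt (by omega) (by omega))).trans ?_
  · push_cast
    rw [← mul_pow]
    congr 1
    rw [natCast_expo, natCast_expo, natCast_expo, ← Units.val_mul, ← map_mul]
  -- the map `χ ↦ ` class of the radical ideal
  obtain ⟨i⟩ : Nonempty (K →+* AlgebraicClosure ℚ) :=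
    ⟨(IsAlgClosed.lift (R := ℚ) (S := K) (M := AlgebraicClosure ℚ)).toRingHom⟩
  choose b hRad hord using fun χ : ClassGroup (𝓞 K) →* C p => exists_rad hp2 hζ i χ
  choose D hD using fun χ => exists_root (hord χ)
  have key : ∀ χ : {f : ClassGroup (𝓞 K) →* C p // ∀ (σ : K ≃ₐ[ℚ] K) x,
      f (gal σ x) = f x ^ (expo hζ σ ^ k)}, ∀ σ : K ≃ₐ[ℚ] K,
      qt p (mp σ (b χ.1)) = qt p (b χ.1) ^ (expo hζ σ ^ (p - k)) := fun χ σ =>
    qt_mp hζ (by omega) χ.2 (hRad χ.1) σ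
  refine Nat.card_le_card_of_injective (fun χ => ⟨classOf (Multiplicative.ofAdd (D χ.1)),
    pow_classOf (hD χ.1), fun σ => gal_classOf (hD χ.1) (key χ σ)⟩) ?_
  intro χ χ' h
  have h1 : classOf (Multiplicative.ofAdd (D χ.1)) = classOf (Multiplicative.ofAdd (D χ'.1)) :=
    congrArg Subtype.val h
  have h2 : classOf (Multiplicative.ofAdd (D χ.1 - D χ'.1)) = 1 := by
    rw [ofAdd_sub, map_div, h1, div_self']
  obtain ⟨x, hx⟩ := (classOf_eq_one_iff _).mp h2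
  have hx' : div x = D χ.1 - D χ'.1 := hx
  set u' : Kˣ := b χ.1 * ((b χ'.1)⁻¹ * (x⁻¹) ^ p) with hu'
  have hdiv : div (R := 𝓞 K) u' = 0 := by
    rw [hu', SUnits.div_mul, SUnits.div_mul, SUnits.div_inv, SUnits.div_pow, SUnits.div_inv, hD,
      hD, hx', neg_sub, smul_sub]
    abel
  obtain ⟨u, hu⟩ := (div_eq_zero_iff K (R := 𝓞 K) _).mp hdiv
  have hq : qt p u' = qt p (b χ.1) * (qt p (b χ'.1))⁻¹ := by
    rw [hu', qt_mul, qt_mul_pow]
    rfl
  have h3 : qt p u' = 1 := by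
    refine eq_pow_of_eigen hp2 hζ hj (by omega) (by omega) (u := u) ?_ fun σ => ?_
    · rw [← hu]
      rfl
    · have h4 : qt p (mp σ u') = qt p (mp σ (b χ.1)) * (qt p (mp σ (b χ'.1)))⁻¹ := by
        rw [hu', map_mul, map_mul, map_pow, qt_mul, qt_mul_pow, map_inv]
        rfl
      have h5 : qt p (mp σ (b χ.1)) = qt p (b χ.1) ^ (expo hζ σ ^ (p - k)) := key ⟨χ.1, χ.2⟩ σ
      have h6 : qt p (mp σ (b χ'.1)) = qt p (b χ'.1) ^ (expo hζ σ ^ (p - k)) :=
        key ⟨χ'.1, χ'.2⟩ σ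
      rw [h4, h5, h6, hq, mul_pow, inv_pow]
  rw [h3, eq_comm, mul_inv_eq_one] at hq
  obtain ⟨c, hc⟩ := qt_eq.mp hq
  exact Subtype.ext ((hRad χ.1).inj hζ (hRad χ'.1) hc)

end

end Fermat.Agent.Cor.Refl
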