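import Fermat.Agent.Corollaries.Refl.Bern

/-!
# The `p`-ranks of the two parts of the class group of `ℚ(ζ_p)`

`card_plus_le_card_minus`: `#Cl(ℚ(ζ_p))[p]⁺ ≤ #Cl(ℚ(ζ_p))[p]⁻`, where `±` are the subgroups of the
classes with `C̄ = C` and `C̄ = C⁻¹`.
-/

set_option autoImplicit false

noncomputable section

namespace Fermat.Agent.Cor.Refl

open NumberField Finset
open Fermat.Agent.Cor.Cat Fermat.Agent.Cor.Stick

variable {p : ℕ} [hp : Fact p.Prime] {K : Type} [Field K] [NumberField K] {ζ : K}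

/-- The `ω ^ k`-part of `Cl(K)[p]`. -/
abbrev EigSp (hζ : IsPrimitiveRoot ζ p) (k : ℕ) : Type :=
  {C : ClassGroup (𝓞 K) // C ^ p = 1 ∧ ∀ σ : K ≃ₐ[ℚ] K, gal σ C = C ^ (expo hζ σ ^ k)}

theorem eig_eq_pow (hζ : IsPrimitiveRoot ζ p) (i j : ℕ) (C : EigSp hζ j) :
    eig hζ i C.1 = C.1 ^ (∑ σ : K ≃ₐ[ℚ] K, expo hζ σ ^ j * expo hζ σ⁻¹ ^ i) := by
  rw [eig, ← Finset.prod_pow_eq_pow_sum]
  refine Finset.prod_congr rfl fun σ _ => ?_
  rw [C.2.2 σ, ← pow_mul]

theorem eig_mul (hζ : IsPrimitiveRoot ζ p) (i : ℕ) (C D : ClassGroup (𝓞 K)) :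
    eig hζ i (C * D) = eig hζ i C * eig hζ i D := by
  rw [eig, eig, eig, ← Finset.prod_mul_distrib]
  refine Finset.prod_congr rfl fun σ _ => ?_
  rw [map_mul, mul_pow]

theorem eig_one (hζ : IsPrimitiveRoot ζ p) (i : ℕ) : eig (K := K) hζ i 1 = 1 := by
  rw [eig]
  refine Finset.prod_eq_one fun σ _ => ?_
  rw [map_one, one_pow]

theorem eig_prod (hζ : IsPrimitiveRoot ζ p) (i : ℕ) {ι : Type*} (s : Finset ι)
    (f : ι → ClassGroup (𝓞 K)) : eig hζ i (∏ k ∈ s, f k) = ∏ k ∈ s, eig hζ i (f k) := by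
  classical
  induction s using Finset.induction_on with
  | empty => rw [Finset.prod_empty, Finset.prod_empty, eig_one]
  | insert a s ha ih => rw [Finset.prod_insert ha, Finset.prod_insert ha, eig_mul, ih]

theorem eq_of_pow_pred {G : Type*} [Group G] {x y : G} (hx : x ^ p = 1) (hy : y ^ p = 1)
    (h : x ^ (p - 1) = y ^ (p - 1)) : x = y := by
  have h1 : ∀ z : G, z ^ p = 1 → z = (z ^ (p - 1))⁻¹ := by
    intro z hz
    refine eq_inv_of_mul_eq_one_right ?_
    rw [← pow_succ, Nat.sub_add_cancel hp.out.one_lt.le, hz]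
  rw [h1 x hx, h1 y hy, h]

variable [hcyc : IsCyclotomicExtension {p} ℚ K]

theorem card_gal (hζ : IsPrimitiveRoot ζ p) : Fintype.card (K ≃ₐ[ℚ] K) = p - 1 := by
  have h1 := sum_expo_inv hζ (fun _ => 1)
  rw [Finset.sum_const, Finset.sum_const, smul_eq_mul, smul_eq_mul, mul_one, mul_one,
    Finset.card_erase_of_mem (Finset.mem_range.mpr hp.out.pos), Finset.card_range,
    Finset.card_univ] at h1
  exact h1

theorem eig_self (hζ : IsPrimitiveRoot ζ p) (j : ℕ) (C : EigSp hζ j) :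
    eig hζ j C.1 = C.1 ^ (p - 1) := by
  rw [eig_eq_pow]
  refine pow_eq_pow_of_cast C.2.1 ?_
  push_cast
  rw [Finset.sum_congr rfl fun σ _ => by
    rw [← mul_pow, expo_mul_expo_inv hζ σ, one_pow], Finset.sum_const, Finset.card_univ,
    card_gal hζ, nsmul_eq_mul, mul_one]

theorem sum_pow_eq_zero {m : ℕ} (hm : ¬ (p - 1) ∣ m) :
    ∑ a ∈ (range p).erase 0, (a : ZMod p) ^ m = 0 := by
  have hm0 : m ≠ 0 := by
    rintro rfl
    exact hm (dvd_zero _)
  have h1 : ∑ a ∈ (range p).erase 0, (a : ZMod p) ^ m = ∑ a ∈ range p, (a : ZMod p) ^ m := by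
    rw [← Finset.add_sum_erase (range p) _ (Finset.mem_range.mpr hp.out.pos)]
    simp [hm0]
  have h2 : ∑ a ∈ range p, (a : ZMod p) ^ m = ∑ x : ZMod p, x ^ m := by
    refine Finset.sum_bij' (fun a _ => (a : ZMod p)) (fun x _ => x.val) ?_ ?_ ?_ ?_ ?_
    · exact fun a _ => Finset.mem_univ _
    · exact fun x _ => Finset.mem_range.mpr (ZMod.val_lt x)
    · exact fun a ha => ZMod.val_natCast_of_lt (Finset.mem_range.mp ha)
    · exact fun x _ => ZMod.natCast_zmod_val x
    · exact fun a _ => rfl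
  rw [h1, h2]
  obtain ⟨g, hg⟩ := IsCyclic.exists_generator (α := (ZMod p)ˣ)
  have hord : orderOf g = p - 1 := by
    rw [orderOf_eq_card_of_forall_mem_zpowers hg, Nat.card_eq_fintype_card, ZMod.card_units]
  have h3 : (g : ZMod p) ^ m ≠ 1 := by
    intro h
    apply hm
    rw [← hord]
    refine orderOf_dvd_of_pow_eq_one (Units.ext ?_)
    rw [Units.val_pow_eq_pow_val, h, Units.val_one]
  have h4 : (g : ZMod p) ^ m * ∑ x : ZMod p, x ^ m = ∑ x : ZMod p, x ^ m := by
    rw [Finset.mul_sum]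
    refine Fintype.sum_equiv (Equiv.mulLeft₀ (g : ZMod p) g.ne_zero) _ _ fun x => ?_
    rw [Equiv.mulLeft₀_apply, mul_pow]
  have h5 : ((g : ZMod p) ^ m - 1) * ∑ x : ZMod p, x ^ m = 0 := by
    rw [sub_mul, one_mul, h4, sub_self]
  exact (mul_eq_zero.mp h5).resolve_left (sub_ne_zero_of_ne h3)

theorem eig_ne (hζ : IsPrimitiveRoot ζ p) {i j : ℕ} (hi : 0 < i) (hip : i < p - 1)
    (hj : 0 < j) (hjp : j < p - 1) (hij : i ≠ j) (C : EigSp hζ j) : eig hζ i C.1 = 1 := by
  rw [eig_eq_pow]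
  conv_rhs => rw [← pow_zero C.1]
  refine pow_eq_pow_of_cast C.2.1 ?_
  push_cast
  have h1 : ∀ σ : K ≃ₐ[ℚ] K, (expo hζ σ : ZMod p) ^ j * (expo hζ σ⁻¹ : ZMod p) ^ i =
      (expo hζ σ⁻¹ : ZMod p) ^ ((p - 1 - j) + i) := by
    intro σ
    have h2 := expo_mul_expo_inv hζ σ
    have h0 : (expo hζ σ⁻¹ : ZMod p) ≠ 0 := right_ne_zero_of_mul_eq_one h2
    have h3 : (expo hζ σ⁻¹ : ZMod p) ^ (p - 1 - j) * (expo hζ σ⁻¹ : ZMod p) ^ j = 1 := by
      rw [← pow_add, Nat.sub_add_cancel hjp.le, ZMod.pow_card_sub_one_eq_one h0]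
    have h4 : (expo hζ σ : ZMod p) ^ j * (expo hζ σ⁻¹ : ZMod p) ^ j = 1 := by
      rw [← mul_pow, h2, one_pow]
    have h5 : (expo hζ σ : ZMod p) ^ j = (expo hζ σ⁻¹ : ZMod p) ^ (p - 1 - j) :=
      mul_right_cancel₀ (pow_ne_zero j h0) (by rw [h4, h3])
    rw [h5, ← pow_add]
  rw [Finset.sum_congr rfl fun σ _ => h1 σ,
    sum_expo_inv hζ (fun a => (a : ZMod p) ^ ((p - 1 - j) + i))]
  refine sum_pow_eq_zero fun hdvd => ?_
  obtain ⟨c, hc⟩ := hdvd
  rcases lt_trichotomy i j with h | h | h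
  · have h6 : 0 < (p - 1) * c := by omega
    have h7 : (p - 1) * c < (p - 1) * 1 := by omega
    have h8 := Nat.lt_of_mul_lt_mul_left h7
    have h9 : c = 0 := by omega
    rw [h9] at h6
    omega
  · exact hij h
  · have h6 : (p - 1) * 1 < (p - 1) * c := by omega
    have h7 : (p - 1) * c < (p - 1) * 2 := by omega
    have h8 := Nat.lt_of_mul_lt_mul_left h6
    have h9 := Nat.lt_of_mul_lt_mul_left h7
    omega

/-- **`#Cl(ℚ(ζ_p))[p]⁺ ≤ #Cl(ℚ(ζ_p))[p]⁻`**: the `p`-rank of the real part of the class group is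
not larger than the `p`-rank of the relative part. -/
theorem card_plus_le_card_minus (hp2 : p ≠ 2) (hζ : IsPrimitiveRoot ζ p) {J : K ≃ₐ[ℚ] K}
    (hJζ : J ζ = ζ⁻¹) :
    Nat.card {C : ClassGroup (𝓞 K) // C ^ p = 1 ∧ gal J C = C} ≤
      Nat.card {C : ClassGroup (𝓞 K) // C ^ p = 1 ∧ gal J C = C⁻¹} := by
  classical
  have hp3 : 3 ≤ p := by
    have := hp.out.two_le
    omega
  have hpo : p % 2 = 1 := (hp.out.eq_two_or_odd).resolve_left hp2
  have hJ : (expo hζ J : ZMod p) = -1 := by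
    obtain ⟨J', hJ', hJ'e⟩ := Stick.exists_conj hζ
    have h1 : expo hζ J = expo hζ J' := by
      refine hζ.pow_inj (expo_lt hζ J) (expo_lt hζ J') ?_
      rw [pow_expo, pow_expo, hJζ, hJ']
    rw [h1, hJ'e]
  set S : Finset ℕ := (range (p - 1)).filter fun k => Even k ∧ 2 ≤ k with hS
  have hSm : ∀ k : S, Even k.1 ∧ 2 ≤ k.1 ∧ k.1 + 3 ≤ p := by
    intro k
    have h1 : k.1 ∈ (range (p - 1)).filter fun k => Even k ∧ 2 ≤ k := k.2
    rw [mem_filter, mem_range] at h1
    refine ⟨h1.2.1, h1.2.2, ?_⟩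
    obtain ⟨j, hj⟩ := h1.2.1
    omega
  -- the plus part embeds in the product of the even parts
  have h1 : Nat.card {C : ClassGroup (𝓞 K) // C ^ p = 1 ∧ gal J C = C} ≤
      Nat.card (∀ k : S, EigSp (K := K) hζ k.1) := by
    refine Nat.card_le_card_of_injective (fun C k => ⟨eig hζ k.1 C.1, eig_pow hζ k.1 C.2.1,
      gal_eig hζ k.1 C.2.1⟩) ?_
    have key : ∀ C : {C : ClassGroup (𝓞 K) // C ^ p = 1 ∧ gal J C = C},
        C.1 ^ (p - 1) = ∏ k ∈ S, eig hζ k C.1 := by
      intro C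
      rw [← prod_eig hζ C.2.1, hS, Finset.prod_filter]
      refine Finset.prod_congr rfl fun k hk => ?_
      split_ifs with h
      · rfl
      · rw [mem_range] at hk
        rcases Nat.even_or_odd k with he | ho
        · have hk0 : k = 0 := by
            by_contra hne
            exact h ⟨he, by obtain ⟨j, rfl⟩ := he; omega⟩
          subst hk0
          refine eq_one_of_invariant hp2 hζ (eig_pow hζ 0 C.2.1) fun σ => ?_
          rw [gal_eig hζ 0 C.2.1, pow_zero, pow_one]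
        · -- `k` odd: `J` acts as `-1` and trivially
          have h3 : gal J (eig hζ k C.1) = (eig hζ k C.1) ^ (p - 1) := by
            rw [gal_eig hζ k C.2.1]
            refine pow_eq_pow_of_cast (eig_pow hζ k C.2.1) ?_
            push_cast
            rw [hJ, ho.neg_one_pow, Nat.cast_sub hp.out.one_lt.le]
            simp
          have h4 : gal J (eig hζ k C.1) = eig hζ k C.1 := by
            rw [eig, map_prod]
            refine Finset.prod_congr rfl fun σ _ => ?_
            rw [map_pow, ← gal_mul, mul_comm_gal hζ J σ, gal_mul, C.2.2]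
          rw [h3] at h4
          have h5 : eig hζ k C.1 ^ (p - 2) = 1 := by
            have h6 : eig hζ k C.1 ^ (p - 2) * eig hζ k C.1 = 1 * eig hζ k C.1 := by
              rw [← pow_succ, one_mul, show p - 2 + 1 = p - 1 by omega, h4]
            exact mul_right_cancel h6
          refine eq_one_of_pow_eq (eig_pow hζ k C.2.1) (a := p - 2) (b := 0) (by
            rw [h5, pow_zero]) ?_
          rw [Nat.cast_zero, Ne, ZMod.natCast_eq_zero_iff]
          exact Nat.not_dvd_of_pos_of_lt (by omega) (by omega)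
    intro C C' h
    apply Subtype.ext
    refine eq_of_pow_pred C.2.1 C'.2.1 ?_
    rw [key, key]
    refine Finset.prod_congr rfl fun k hk => ?_
    exact congrArg Subtype.val (congrFun h ⟨k, hk⟩)
  -- the product of the odd parts embeds in the minus part
  have h2 : Nat.card (∀ k : S, EigSp (K := K) hζ (p - k.1)) ≤
      Nat.card {C : ClassGroup (𝓞 K) // C ^ p = 1 ∧ gal J C = C⁻¹} := by
    refine Nat.card_le_card_of_injective (fun f => ⟨∏ k : S, (f k).1, ?_, ?_⟩) ?_
    · rw [← Finset.prod_pow]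
      exact Finset.prod_eq_one fun k _ => (f k).2.1
    · rw [map_prod, ← Finset.prod_inv_distrib]
      refine Finset.prod_congr rfl fun k _ => ?_
      rw [(f k).2.2 J]
      refine eq_inv_of_mul_eq_one_left ?_
      rw [← pow_succ]
      conv_rhs => rw [← pow_zero (f k).1]
      refine pow_eq_pow_of_cast (f k).2.1 ?_
      push_cast
      have hodd : Odd (p - k.1) :=
        Nat.Odd.sub_even (by have := (hSm k).2.2; omega) (hp.out.odd_of_ne_two hp2) (hSm k).1
      rw [hJ, hodd.neg_one_pow, neg_add_cancel]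
    · intro f f' h
      have h3 : ∏ k : S, (f k).1 = ∏ k : S, (f' k).1 := congrArg Subtype.val h
      have key : ∀ (g : ∀ k : S, EigSp (K := K) hζ (p - k.1)) (l : S),
          eig hζ (p - l.1) (∏ k : S, (g k).1) = (g l).1 ^ (p - 1) := by
        intro g l
        rw [eig_prod, Finset.prod_eq_single l]
        · exact eig_self hζ _ (g l)
        · intro k _ hkl
          have ha := hSm k
          have hb := hSm l
          have hne : k.1 ≠ l.1 := fun h => hkl (Subtype.ext h)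
          exact eig_ne hζ (by omega) (by omega) (by omega) (by omega) (by omega) (g k)
        · exact fun h => absurd (Finset.mem_univ l) h
      funext l
      apply Subtype.ext
      refine eq_of_pow_pred (f l).2.1 (f' l).2.1 ?_
      rw [← key f l, ← key f' l, h3]
  refine h1.trans (le_trans ?_ h2)
  rw [Nat.card_pi, Nat.card_pi]
  refine Finset.prod_le_prod' fun k _ => ?_
  exact reflection hζ (hSm k).1 (hSm k).2.1 (hSm k).2.2

end Fermat.Agent.Cor.Refl
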