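import Fermat.Agent.Corollaries.Refl.PlusMinus
import Fermat.Agent.Corollaries.Kum.Quad

/-!
# The class group of the real subfield of `ℚ(ζ_p)`

`card_real_le`: `#Cl(ℚ(ζ_p)⁺)[p] ≤ #Cl(ℚ(ζ_p))[p]⁻`: the `p`-rank of the class group of the maximal
real subfield is not larger than the `p`-rank of the relative class group.
-/

set_option autoImplicit false

noncomputable section

namespace Fermat.Agent.Cor.Refl

open NumberField Finset
open Fermat.Agent.Cor.Cat Fermat.Agent.Cor.Stick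
open scoped nonZeroDivisors

variable {p : ℕ} [hp : Fact p.Prime] {K : Type} [Field K] [NumberField K] {ζ : K}
  {F : Type*} [Field F] [NumberField F] [Algebra F K]

/-- The classes which come from a subfield are fixed. -/
theorem gal_extended {J : K ≃ₐ[ℚ] K} (hJF : ∀ x : F, J (algebraMap F K x) = algebraMap F K x)
    (c : ClassGroup (𝓞 F)) : gal J (ClassGroup.extendedHom (𝓞 F) (𝓞 K) c) =
      ClassGroup.extendedHom (𝓞 F) (𝓞 K) c := by
  obtain ⟨b, rfl⟩ := ClassGroup.mk0_surjective c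
  rw [ClassGroup.extendedHom_mk0, gal_mk0]
  congr 1
  apply Subtype.ext
  change (((b : Ideal (𝓞 F)).map (algebraMap (𝓞 F) (𝓞 K))).map (act J)) =
    (b : Ideal (𝓞 F)).map (algebraMap (𝓞 F) (𝓞 K))
  rw [Ideal.map_map]
  congr 1
  ext x
  exact hJF (x : F)

variable [hcyc : IsCyclotomicExtension {p} ℚ K]

/-- **`#Cl(ℚ(ζ_p)⁺)[p] ≤ #Cl(ℚ(ζ_p))[p]⁻`.**  Here `F` is the maximal real subfield, the fixed field
of the complex conjugation `J`. -/
theorem card_real_le (hp2 : p ≠ 2) (hζ : IsPrimitiveRoot ζ p) (h2 : Module.finrank F K = 2)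
    {J : K ≃ₐ[ℚ] K} (hJζ : J ζ = ζ⁻¹) (hJF : ∀ x : F, J (algebraMap F K x) = algebraMap F K x) :
    Nat.card {c : ClassGroup (𝓞 F) // c ^ p = 1} ≤
      Nat.card {C : ClassGroup (𝓞 K) // C ^ p = 1 ∧ gal J C = C⁻¹} := by
  refine le_trans ?_ (card_plus_le_card_minus hp2 hζ hJζ)
  refine Nat.card_le_card_of_injective (fun c => ⟨ClassGroup.extendedHom (𝓞 F) (𝓞 K) c.1, ?_, ?_⟩) ?_
  · rw [← map_pow, c.2, map_one]
  · exact gal_extended hJF c.1
  · intro c d h
    have h1 : ClassGroup.extendedHom (𝓞 F) (𝓞 K) c.1 = ClassGroup.extendedHom (𝓞 F) (𝓞 K) d.1 :=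
      congrArg Subtype.val h
    have h3 := Kum.sq_eq_one_of_extended_eq_one (K := K) h2 (c.1 / d.1) (by
      rw [map_div, h1, div_self'])
    have h4 : (c.1 / d.1) ^ p = 1 := by rw [div_pow, c.2, d.2, div_one]
    have h5 : orderOf (c.1 / d.1) ∣ 1 := by
      rw [← (Nat.coprime_primes Nat.prime_two hp.out).mpr (Ne.symm hp2)]
      exact Nat.dvd_gcd (orderOf_dvd_of_pow_eq_one h3) (orderOf_dvd_of_pow_eq_one h4)
    exact Subtype.ext (div_eq_one.mp (orderOf_eq_one_iff.mp (Nat.dvd_one.mp h5)))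

/-- If `p` divides the class number of the real subfield, there is a class `C ≠ 1` of `ℚ(ζ_p)` with
`C ^ p = 1`, `C̄ = C⁻¹`. -/
theorem exists_minus_of_dvd (hp2 : p ≠ 2) (hζ : IsPrimitiveRoot ζ p)
    (h2 : Module.finrank F K = 2) {J : K ≃ₐ[ℚ] K} (hJζ : J ζ = ζ⁻¹)
    (hJF : ∀ x : F, J (algebraMap F K x) = algebraMap F K x) (h : p ∣ classNumber F) :
    ∃ C : ClassGroup (𝓞 K), C ≠ 1 ∧ C ^ p = 1 ∧ gal J C = C⁻¹ := by
  obtain ⟨c, hc⟩ := exists_prime_orderOf_dvd_card (G := ClassGroup (𝓞 F)) p h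
  have hc1 : c ≠ 1 := by
    rintro rfl
    rw [orderOf_one] at hc
    exact hp.out.one_lt.ne hc
  have h3 : 1 < Nat.card {c : ClassGroup (𝓞 F) // c ^ p = 1} := by
    rw [Finite.one_lt_card_iff_nontrivial]
    exact ⟨⟨1, one_pow p⟩, ⟨c, by rw [← hc, pow_orderOf_eq_one]⟩,
      fun h4 => hc1 (congrArg Subtype.val h4).symm⟩
  have h4 := h3.trans_le (card_real_le hp2 hζ h2 hJζ hJF)
  rw [Finite.one_lt_card_iff_nontrivial] at h4
  obtain ⟨C, hC⟩ := exists_ne (⟨1, one_pow p, by rw [map_one, inv_one]⟩ :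
    {C : ClassGroup (𝓞 K) // C ^ p = 1 ∧ gal J C = C⁻¹})
  exact ⟨C.1, fun h5 => hC (Subtype.ext h5), C.2⟩

end Fermat.Agent.Cor.Refl
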