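import Fermat.Agent.Corollaries.Refl.Bern
import Fermat.Agent.Corollaries.Kum.Table

/-!
# The theorem of Herbrand and Ribet for primes with one irregular index

* `herbrand_ribet_of_unique`: if `p` divides the numerator of `B_k`, but of no other one of
  `B_2, B_4, …, B_{p-3}`, then the `ω ^ (p - k)`-part of `Cl(ℚ(ζ_p))[p]` is not trivial;
* `dvd_num_bernoulli_iff_of_lt`: the irregular pairs `(p, k)` with `p < 164`;
* `herbrand_ribet_of_lt`: for `p < 157` and all even `2 ≤ k ≤ p - 3` the `ω ^ (p - k)`-part of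
  `Cl(ℚ(ζ_p))[p]` is not trivial if and only if `p` divides the numerator of `B_k`.
-/

set_option autoImplicit false

noncomputable section

namespace Fermat.Agent.Cor.Refl

open NumberField Finset
open Fermat.Agent.Cor.Cat Fermat.Agent.Cor.Stick
open Fermat.Agent.Cor.Kum (sumPow sumPow_eq primes164 mem_primes164)

section Unique

variable {p : ℕ} [hp : Fact p.Prime] {K : Type} [Field K] [NumberField K]
  [hcyc : IsCyclotomicExtension {p} ℚ K] {ζ : K}

/-- If the `ω ^ i`-part is not trivial, then `2 ≤ i ≤ p - 2` and `p` divides `B_i` or `B_{p-i}`. -/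
theorem dvd_bernoulli_of_eigen (hp2 : p ≠ 2) (hζ : IsPrimitiveRoot ζ p) {i : ℕ}
    (hi : i < p - 1) {C : ClassGroup (𝓞 K)} (hC1 : C ≠ 1) (hCp : C ^ p = 1)
    (hC : ∀ σ : K ≃ₐ[ℚ] K, gal σ C = C ^ (expo hζ σ ^ i)) :
    (Even i ∧ 2 ≤ i ∧ i + 3 ≤ p ∧ (p : ℤ) ∣ (bernoulli i).num) ∨
      (Odd i ∧ 3 ≤ i ∧ i + 2 ≤ p ∧ (p : ℤ) ∣ (bernoulli (p - i)).num) := by
  have hpo : p % 2 = 1 := (hp.out.eq_two_or_odd).resolve_left hp2
  rcases Nat.even_or_odd i with he | ho
  · left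
    have hi0 : i ≠ 0 := by
      rintro rfl
      exact hC1 (eq_one_of_invariant hp2 hζ hCp fun σ => by rw [hC σ, pow_zero, pow_one])
    have h2 : 2 ≤ i ∧ i + 3 ≤ p := by
      obtain ⟨j, rfl⟩ := he
      omega
    exact ⟨he, h2.1, h2.2, dvd_bernoulli_of_even hζ he h2.1 h2.2 hC1 hCp hC⟩
  · right
    have hi1 : i ≠ 1 := by
      rintro rfl
      exact hC1 (eq_one_of_eigen_one hp2 hζ hCp fun σ => by rw [hC σ, pow_one])
    have h3 : 3 ≤ i := by
      obtain ⟨j, rfl⟩ := ho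
      omega
    exact ⟨ho, h3, by omega, herbrand hζ h3 (by omega) hC1 hCp hC⟩

/-- **Herbrand - Ribet for one irregular index**: `p ∣ B_k`, and `p` divides the numerator of no
other one of `B_2, B_4, …, B_{p-3}`.  Then the `ω ^ (p - k)`-part of the class group of `ℚ(ζ_p)` is
not trivial. -/
theorem herbrand_ribet_of_unique (hζ : IsPrimitiveRoot ζ p) {k : ℕ} (hk : Even k)
    (hk2 : 2 ≤ k) (hkp : k + 3 ≤ p) (hB : (p : ℤ) ∣ (bernoulli k).num)
    (huniq : ∀ l, Even l → 2 ≤ l → l + 3 ≤ p → (p : ℤ) ∣ (bernoulli l).num → l = k) :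
    ∃ C : ClassGroup (𝓞 K), C ≠ 1 ∧ C ^ p = 1 ∧
      ∀ σ : K ≃ₐ[ℚ] K, gal σ C = C ^ (expo hζ σ ^ (p - k)) := by
  have hp2 : p ≠ 2 := by omega
  have hpo : p % 2 = 1 := (hp.out.eq_two_or_odd).resolve_left hp2
  have h : p ∣ classNumber K := by
    by_contra h
    exact (Kum.kummer_regular p hp2 K).mp h k hk hk2 (by omega) hB
  obtain ⟨C, hC⟩ := exists_prime_orderOf_dvd_card (G := ClassGroup (𝓞 K)) p h
  have hCp : C ^ p = 1 := by rw [← hC, pow_orderOf_eq_one]
  obtain ⟨i, hi, hne⟩ : ∃ i ∈ range (p - 1), eig hζ i C ≠ 1 := by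
    by_contra hall
    push Not at hall
    have h2 := prod_eig hζ hCp
    rw [Finset.prod_eq_one hall] at h2
    have h3 : C ^ p = C := by
      conv_lhs => rw [← Nat.sub_add_cancel hp.out.one_lt.le, pow_succ, ← h2, one_mul]
    rw [hCp] at h3
    rw [← h3, orderOf_one] at hC
    exact hp.out.one_lt.ne hC
  rw [mem_range] at hi
  rcases dvd_bernoulli_of_eigen hp2 hζ hi hne (eig_pow hζ i hCp) (gal_eig hζ i hCp) with
    ⟨h1, h2, h3, h4⟩ | ⟨h1, h2, h3, h4⟩
  · have h5 := huniq i h1 h2 h3 h4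
    subst h5
    exact exists_eigen_of_even hζ h1 h2 h3 hne (eig_pow hζ i hCp) (gal_eig hζ i hCp)
  · have h5 : p - i = k := by
      refine huniq (p - i) ?_ (by omega) (by omega) h4
      obtain ⟨j, rfl⟩ := h1
      exact ⟨(p - (2 * j + 1)) / 2, by omega⟩
    have h6 : i = p - k := by omega
    subst h6
    exact ⟨_, hne, eig_pow hζ _ hCp, gal_eig hζ _ hCp⟩

end Unique

/-- The irregular pairs `(p, k)`, `p < 164`. -/
def irrPairs : List (ℕ × ℕ) :=
  [(37, 32), (59, 44), (67, 58), (101, 68), (103, 24), (131, 22), (149, 130), (157, 62),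
    (157, 110)]

theorem irr_table_pairs : ∀ q ∈ primes164, ∀ j ∈ List.range ((q - 3) / 2),
    (sumPow (2 * (j + 1)) q % q ^ 2 == 0) = decide ((q, 2 * (j + 1)) ∈ irrPairs) := by
  decide +kernel

/-- **The irregular pairs below `164`**: `p` an odd prime, `p < 164`, `k` even, `2 ≤ k ≤ p - 3`:
`p` divides the numerator of `B_k` iff `(p, k)` is in the list `irrPairs`. -/
theorem dvd_num_bernoulli_iff_of_lt (p : ℕ) [hp : Fact p.Prime] (hp2 : p ≠ 2) (h : p < 164)
    {k : ℕ} (hk : Even k) (hk2 : 2 ≤ k) (hkp : k + 3 ≤ p) :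
    (p : ℤ) ∣ (bernoulli k).num ↔ (p, k) ∈ irrPairs := by
  obtain ⟨j, rfl⟩ : ∃ j, k = 2 * (j + 1) := by
    obtain ⟨j, rfl⟩ := hk
    exact ⟨j - 1, by omega⟩
  have h1 := irr_table_pairs p (mem_primes164 hp.out hp2 h) j (List.mem_range.mpr (by omega))
  rw [← Kummer.sq_dvd_sum_iff p (by omega), ← sumPow_eq, Nat.dvd_iff_mod_eq_zero, ← beq_iff_eq, h1,
    decide_eq_true_iff]

theorem eq_of_mem_irrPairs {p k l : ℕ} (hp : p < 157) (hk : (p, k) ∈ irrPairs)
    (hl : (p, l) ∈ irrPairs) : l = k := by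
  simp only [irrPairs, List.mem_cons, Prod.mk.injEq, List.not_mem_nil, or_false] at hk hl
  omega

/-- **The theorem of Herbrand and Ribet for `p < 157`**: for every even `k`, `2 ≤ k ≤ p - 3`, the
`ω ^ (p - k)`-part of the class group of `ℚ(ζ_p)` is not trivial if and only if `p` divides the
numerator of `B_k`. -/
theorem herbrand_ribet_of_lt (p : ℕ) [hp : Fact p.Prime] (h : p < 157) {K : Type} [Field K]
    [NumberField K] [hcyc : IsCyclotomicExtension {p} ℚ K] {ζ : K} (hζ : IsPrimitiveRoot ζ p)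
    {k : ℕ} (hk : Even k) (hk2 : 2 ≤ k) (hkp : k + 3 ≤ p) :
    (∃ C : ClassGroup (𝓞 K), C ≠ 1 ∧ C ^ p = 1 ∧
      ∀ σ : K ≃ₐ[ℚ] K, gal σ C = C ^ (expo hζ σ ^ (p - k))) ↔ (p : ℤ) ∣ (bernoulli k).num := by
  have hp2 : p ≠ 2 := by omega
  constructor
  · rintro ⟨C, h1, h2, h3⟩
    have h4 := herbrand hζ (i := p - k) (by omega) (by omega) h1 h2 h3
    rwa [show p - (p - k) = k by omega] at h4
  · intro hB
    refine herbrand_ribet_of_unique hζ hk hk2 hkp hB fun l hl hl2 hlp hBl => ?_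
    exact eq_of_mem_irrPairs h ((dvd_num_bernoulli_iff_of_lt p hp2 (by omega) hk hk2 hkp).mp hB)
      ((dvd_num_bernoulli_iff_of_lt p hp2 (by omega) hl hl2 hlp).mp hBl)

end Fermat.Agent.Cor.Refl
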