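import Mathlib

/-!
# Integrality of traces

An endomorphism `S` of `ℝ ^ ι` which maps a lattice `Λ` to `p Λ` has its trace in `p ℤ`.
-/

set_option autoImplicit false

noncomputable section

namespace Fermat.Agent.Cor.Refl

theorem trace_mem {ι : Type*} [Fintype ι] [DecidableEq ι] {X : Type*} [AddCommGroup X]
    [Module.Finite ℤ X] (L : X →+ (ι → ℝ)) (hspan : Submodule.span ℝ (Set.range L) = ⊤)
    (hrank : Module.finrank ℤ X = Fintype.card ι) (S : (ι → ℝ) →ₗ[ℝ] (ι → ℝ)) {p : ℕ}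
    (h : ∀ x, ∃ y, S (L x) = (p : ℝ) • L y) :
    ∃ N : ℤ, LinearMap.trace ℝ _ S = p * N := by
  classical
  set Λ : Submodule ℤ (ι → ℝ) := LinearMap.range L.toIntLinearMap with hΛ
  have hfin : Module.Finite ℤ Λ := inferInstance
  have hfree : Module.Free ℤ Λ := inferInstance
  have hmem : ∀ x, L x ∈ Λ := fun x => ⟨x, rfl⟩
  set n := Module.finrank ℤ Λ with hn
  let b : Module.Basis (Fin n) ℤ Λ := Module.finBasis ℤ Λ
  let v : Fin n → (ι → ℝ) := fun j => (b j : ι → ℝ)
  have hrep : ∀ y : Λ, (y : ι → ℝ) = ∑ j, ((b.repr y j : ℤ) : ℝ) • v j := by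
    intro y
    have h1 := congrArg (Subtype.val : Λ → (ι → ℝ)) (b.sum_repr y)
    rw [← h1, AddSubmonoidClass.coe_finsetSum]
    refine Finset.sum_congr rfl fun j _ => ?_
    rw [Submodule.coe_smul, Int.cast_smul_eq_zsmul]
  have htop : ⊤ ≤ Submodule.span ℝ (Set.range v) := by
    rw [← hspan, Submodule.span_le]
    rintro _ ⟨x, rfl⟩
    have h1 := hrep ⟨L x, hmem x⟩
    change L x = _ at h1
    rw [h1]
    exact Submodule.sum_mem _ fun j _ => Submodule.smul_mem _ _ (Submodule.subset_span ⟨j, rfl⟩)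
  have hle : n ≤ Fintype.card ι := by
    rw [hn, ← hrank]
    exact LinearMap.finrank_range_le _
  have hge : Fintype.card ι ≤ n := by
    have h1 := finrank_range_le_card (R := ℝ) v
    rw [Set.finrank, top_le_iff.mp htop, finrank_top, Module.finrank_pi, Fintype.card_fin] at h1
    exact h1
  have hcard : Fintype.card (Fin n) = Module.finrank ℝ (ι → ℝ) := by
    rw [Module.finrank_pi, Fintype.card_fin]
    exact le_antisymm hle hge
  let B : Module.Basis (Fin n) ℝ (ι → ℝ) := basisOfTopLeSpanOfCardEqFinrank v htop hcard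
  have hB : ∀ j, B j = v j := fun j => by
    rw [coe_basisOfTopLeSpanOfCardEqFinrank]
  have key : ∀ j, ∃ N : ℤ, B.repr (S (B j)) j = p * N := by
    intro j
    obtain ⟨x, hx⟩ := (b j).2
    have hx' : L x = v j := hx
    obtain ⟨y, hy⟩ := h x
    obtain ⟨N, hN⟩ : ∃ N : Fin n → ℤ, L y = ∑ l, (N l : ℝ) • v l :=
      ⟨fun l => b.repr ⟨L y, hmem y⟩ l, hrep ⟨L y, hmem y⟩⟩
    refine ⟨N j, ?_⟩
    rw [hB, ← hx', hy, hN, map_smul, map_sum, Finsupp.smul_apply, Finsupp.finsetSum_apply,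
      smul_eq_mul]
    congr 1
    rw [Finset.sum_eq_single j]
    · rw [map_smul, ← hB j, B.repr_self, Finsupp.smul_apply, Finsupp.single_eq_same, smul_eq_mul,
        mul_one]
    · intro l _ hl
      rw [map_smul, ← hB l, B.repr_self, Finsupp.smul_apply, Finsupp.single_eq_of_ne (Ne.symm hl),
        smul_zero]
    · exact fun h => absurd (Finset.mem_univ j) h
  choose N hN using key
  refine ⟨∑ j, N j, ?_⟩
  rw [LinearMap.trace_eq_matrix_trace ℝ B, Matrix.trace]
  rw [Finset.sum_congr rfl fun j _ => by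
    rw [Matrix.diag_apply, LinearMap.toMatrix_apply, hN j], ← Finset.mul_sum]
  push_cast
  rfl

/-- The trace of a sum of permutations. -/
theorem trace_eq_sum {ι : Type*} [Fintype ι] [DecidableEq ι] (S : (ι → ℝ) →ₗ[ℝ] (ι → ℝ)) :
    LinearMap.trace ℝ _ S = ∑ i, S (Pi.single i 1) i := by
  rw [LinearMap.trace_eq_matrix_trace ℝ (Pi.basisFun ℝ ι), Matrix.trace]
  refine Finset.sum_congr rfl fun i _ => ?_
  rw [Matrix.diag_apply, LinearMap.toMatrix_apply, Pi.basisFun_apply, Pi.basisFun_repr]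

end Fermat.Agent.Cor.Refl
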