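import Fermat.Agent.Corollaries.Refl.UnitRank
import Fermat.Agent.CFT.SClass

/-!
# The eigenspaces of the units of `ℚ(ζ_p)` modulo `p`-th powers

`card_unitSp`: for `k` even, `2 ≤ k ≤ p - 3`, the `ω ^ k`-part of `E / E ^ p` has exactly `p`
elements.
-/

set_option autoImplicit false

noncomputable section

namespace Fermat.Agent.Cor.Refl

open IsDedekindDomain NumberField NumberField.IsCMField Finset
open Fermat.Agent.Cor.Cat Fermat.Agent.Cor.Stick
open Fermat.Agent.CFT.SUnits Fermat.Agent.CFT Fermat.Agent.CFT.EqUnits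

variable {p : ℕ} [hp : Fact p.Prime] {K : Type} [Field K] [NumberField K] {ζ : K}

/-- the action on `Kˣ` modulo `p`-th powers -/
def actQ (p : ℕ) (σ : K ≃ₐ[ℚ] K) : Qt p K →* Qt p K :=
  QuotientGroup.map _ _ (mp σ) (by
    rintro _ ⟨x, rfl⟩
    exact ⟨mp σ x, by rw [powMonoidHom_apply, powMonoidHom_apply, map_pow]⟩)

omit hp in
theorem actQ_qt (σ : K ≃ₐ[ℚ] K) (x : Kˣ) : actQ p σ (qt p x) = qt p (mp σ x) := rfl

omit hp [NumberField K] in
theorem qt_surjective : Function.Surjective (qt p (K := K)) := QuotientGroup.mk_surjective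

omit hp [NumberField K] in
theorem pow_p (y : Qt p K) : y ^ p = 1 := by
  obtain ⟨x, rfl⟩ := qt_surjective y
  exact qt_pow_p x

omit hp in
theorem actQ_mul (σ τ : K ≃ₐ[ℚ] K) (y : Qt p K) : actQ p (σ * τ) y = actQ p σ (actQ p τ y) := by
  obtain ⟨x, rfl⟩ := qt_surjective y
  rfl

/-- the projection to the `ω ^ i`-part, up to sign -/
def eigQ (hζ : IsPrimitiveRoot ζ p) (i : ℕ) : Qt p K →* Qt p K where
  toFun y := ∏ σ : K ≃ₐ[ℚ] K, actQ p σ y ^ (expo hζ σ⁻¹ ^ i)
  map_one' := Finset.prod_eq_one fun σ _ => by rw [map_one, one_pow]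
  map_mul' x y := by
    rw [← Finset.prod_mul_distrib]
    exact Finset.prod_congr rfl fun σ _ => by rw [map_mul, mul_pow]

theorem eigQ_apply (hζ : IsPrimitiveRoot ζ p) (i : ℕ) (y : Qt p K) :
    eigQ hζ i y = ∏ σ : K ≃ₐ[ℚ] K, actQ p σ y ^ (expo hζ σ⁻¹ ^ i) := rfl

theorem qt_eigU (hζ : IsPrimitiveRoot ζ p) (i : ℕ) (x : Kˣ) :
    qt p (eigU hζ i x) = eigQ hζ i (qt p x) := by
  rw [eigQ_apply, eigU]
  have h : ∀ (s : Finset (K ≃ₐ[ℚ] K)) (f : (K ≃ₐ[ℚ] K) → Kˣ),
      qt p (∏ σ ∈ s, f σ) = ∏ σ ∈ s, qt p (f σ) := by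
    intro s f
    classical
    induction s using Finset.induction_on with
    | empty => rfl
    | insert a s ha ih => rw [Finset.prod_insert ha, Finset.prod_insert ha, qt_mul, ih]
  rw [h]
  exact Finset.prod_congr rfl fun σ _ => by rw [qt_pow, actQ_qt]

theorem actQ_eigQ (hζ : IsPrimitiveRoot ζ p) (i : ℕ) (y : Qt p K) (τ : K ≃ₐ[ℚ] K) :
    actQ p τ (eigQ hζ i y) = eigQ hζ i y ^ (expo hζ τ ^ i) := by
  rw [eigQ_apply, map_prod, ← Finset.prod_pow]
  refine Fintype.prod_equiv (Equiv.mulLeft τ) _ _ fun σ => ?_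
  rw [Equiv.coe_mulLeft, map_pow, ← actQ_mul, ← pow_mul]
  refine pow_eq_pow_of_cast (pow_p _) ?_
  push_cast
  rw [← mul_pow]
  congr 1
  rw [natCast_expo, natCast_expo, natCast_expo, ← Units.val_mul, ← map_mul]
  congr 3
  group

/-- the units modulo `p`-th powers -/
def unitHom (p : ℕ) (K : Type) [Field K] [NumberField K] :
    UT (∅ : Finset (HeightOneSpectrum (𝓞 K))) →* Qt p K where
  toFun u := qt p (u : Kˣ)
  map_one' := rfl
  map_mul' _ _ := rfl

omit hp in
theorem unitHom_apply (u : UT (∅ : Finset (HeightOneSpectrum (𝓞 K)))) :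
    unitHom p K u = qt p (u : Kˣ) := rfl

theorem mem_UT_of_pow {w : Kˣ} (h : w ^ p ∈ UT (∅ : Finset (HeightOneSpectrum (𝓞 K)))) :
    w ∈ UT (∅ : Finset (HeightOneSpectrum (𝓞 K))) := by
  rw [mem_unit_iff] at h ⊢
  intro v hv
  have h2 := h v hv
  rw [ord_pow] at h2
  exact (mul_eq_zero.mp h2).resolve_left (by exact_mod_cast hp.out.ne_zero)

theorem ker_unitHom : (unitHom p K).ker = (powMonoidHom p :
    UT (∅ : Finset (HeightOneSpectrum (𝓞 K))) →* UT (∅ : Finset (HeightOneSpectrum (𝓞 K)))).range := by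
  ext u
  rw [MonoidHom.mem_ker, unitHom_apply, qt_eq_one]
  constructor
  · rintro ⟨c, hc⟩
    have h1 : c ^ p ∈ UT (∅ : Finset (HeightOneSpectrum (𝓞 K))) := hc ▸ u.2
    exact ⟨⟨c, mem_UT_of_pow h1⟩, Subtype.ext hc.symm⟩
  · rintro ⟨c, hc⟩
    exact ⟨c, by rw [← hc]; rfl⟩

theorem card_unitHom_range (hζ : IsPrimitiveRoot ζ p) :
    Nat.card (unitHom p K).range = p ^ Fintype.card (InfinitePlace K) := by
  rw [← Subgroup.index_ker, ker_unitHom, index_pow_sunits_of_isPrimitiveRoot ∅ hp.out.ne_zero hζ,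
    rank_add_one_eq, Finset.card_empty, add_zero]

omit hp in
theorem mem_range_actQ {y : Qt p K} (hy : y ∈ (unitHom p K).range) (σ : K ≃ₐ[ℚ] K) :
    actQ p σ y ∈ (unitHom p K).range := by
  obtain ⟨u, rfl⟩ := hy
  exact ⟨galT stable_empty σ u, by rw [unitHom_apply, coe_galT', unitHom_apply, actQ_qt]⟩

/-- The `ω ^ k`-part of the units modulo `p`-th powers. -/
abbrev UnitSp (hζ : IsPrimitiveRoot ζ p) (k : ℕ) : Type :=
  {y : Qt p K // y ∈ (unitHom p K).range ∧
    ∀ σ : K ≃ₐ[ℚ] K, actQ p σ y = y ^ (expo hζ σ ^ k)}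

theorem eigQ_eq_pow (hζ : IsPrimitiveRoot ζ p) (i j : ℕ) (y : UnitSp hζ j) :
    eigQ hζ i y.1 = y.1 ^ (∑ σ : K ≃ₐ[ℚ] K, expo hζ σ ^ j * expo hζ σ⁻¹ ^ i) := by
  rw [eigQ_apply, ← Finset.prod_pow_eq_pow_sum]
  refine Finset.prod_congr rfl fun σ _ => ?_
  rw [y.2.2 σ, ← pow_mul]

variable [hcyc : IsCyclotomicExtension {p} ℚ K]

theorem sum_expo_self (hζ : IsPrimitiveRoot ζ p) (j : ℕ) :
    ((∑ σ : K ≃ₐ[ℚ] K, expo hζ σ ^ j * expo hζ σ⁻¹ ^ j : ℕ) : ZMod p) = ((p - 1 : ℕ) : ZMod p) := by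
  push_cast
  rw [Finset.sum_congr rfl fun σ _ => by
    rw [← mul_pow, expo_mul_expo_inv hζ σ, one_pow], Finset.sum_const, Finset.card_univ,
    card_gal hζ, nsmul_eq_mul, mul_one]

theorem sum_expo_ne (hζ : IsPrimitiveRoot ζ p) {i j : ℕ} (hi : 0 < i) (hip : i < p - 1)
    (hj : 0 < j) (hjp : j < p - 1) (hij : i ≠ j) :
    ((∑ σ : K ≃ₐ[ℚ] K, expo hζ σ ^ j * expo hζ σ⁻¹ ^ i : ℕ) : ZMod p) = ((0 : ℕ) : ZMod p) := by
  push_cast
  have h1 : ∀ σ : K ≃ₐ[ℚ] K, (expo hζ σ : ZMod p) ^ j * (expo hζ σ⁻¹ : ZMod p) ^ i =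
      (expo hζ σ⁻¹ : ZMod p) ^ ((p - 1 - j) + i) := by
    intro σ
    have h2 := expo_mul_expo_inv hζ σ
    have h0 : (expo hζ σ⁻¹ : ZMod p) ≠ 0 := right_ne_zero_of_mul_eq_one h2
    have h3 : (expo hζ σ⁻¹ : ZMod p) ^ (p - 1 - j) * (expo hζ σ⁻¹ : ZMod p) ^ j = 1 := by
      rw [← pow_add, Nat.sub_add_cancel hjp.le, ZMod.pow_card_sub_one_eq_one h0]
    have h4 : (expo hζ σ : ZMod p) ^ j * (expo hζ σ⁻¹ : ZMod p) ^ j = 1 := by
      rw [← mul_pow, h2, one_pow]
    have h5 : (expo hζ σ : ZMod p) ^ j = (expo hζ σ⁻¹ : ZMod p) ^ (p - 1 - j) :=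
      mul_right_cancel₀ (pow_ne_zero j h0) (by rw [h4, h3])
    rw [h5, ← pow_add]
  rw [Finset.sum_congr rfl fun σ _ => h1 σ,
    sum_expo_inv hζ (fun a => (a : ZMod p) ^ ((p - 1 - j) + i))]
  refine sum_pow_eq_zero fun hdvd => ?_
  obtain ⟨c, hc⟩ := hdvd
  rcases lt_trichotomy i j with h | h | h
  · have h6 : 0 < (p - 1) * c := by omega
    have h7 : (p - 1) * c < (p - 1) * 1 := by omega
    have h8 := Nat.lt_of_mul_lt_mul_left h7
    have h9 : c = 0 := by omega
    rw [h9] at h6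
    omega
  · exact hij h
  · have h6 : (p - 1) * 1 < (p - 1) * c := by omega
    have h7 : (p - 1) * c < (p - 1) * 2 := by omega
    have h8 := Nat.lt_of_mul_lt_mul_left h6
    have h9 := Nat.lt_of_mul_lt_mul_left h7
    omega

theorem eigQ_self (hζ : IsPrimitiveRoot ζ p) (j : ℕ) (y : UnitSp hζ j) :
    eigQ hζ j y.1 = y.1 ^ (p - 1) := by
  rw [eigQ_eq_pow]
  exact pow_eq_pow_of_cast (pow_p _) (sum_expo_self hζ j)

theorem eigQ_ne (hζ : IsPrimitiveRoot ζ p) {i j : ℕ} (hi : 0 < i) (hip : i < p - 1)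
    (hj : 0 < j) (hjp : j < p - 1) (hij : i ≠ j) (y : UnitSp hζ j) : eigQ hζ i y.1 = 1 := by
  rw [eigQ_eq_pow, pow_eq_pow_of_cast (pow_p _) (sum_expo_ne hζ hi hip hj hjp hij), pow_zero]

omit hcyc in
theorem finite_unitSp (hζ : IsPrimitiveRoot ζ p) (k : ℕ) : Finite (UnitSp (K := K) hζ k) := by
  have h1 : Finite (unitHom p K).range := by
    refine Nat.finite_of_card_ne_zero ?_
    rw [card_unitHom_range hζ]
    exact pow_ne_zero _ hp.out.ne_zero
  exact Finite.of_injective (fun y : UnitSp (K := K) hζ k => (⟨y.1, y.2.1⟩ : (unitHom p K).range))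
    fun x y h => Subtype.ext (congrArg (fun z : (unitHom p K).range => (z : Qt p K)) h)

omit hcyc in
/-- An eigenspace which is not trivial has at least `p` elements. -/
theorem le_card_unitSp (hζ : IsPrimitiveRoot ζ p) {k : ℕ} {y : Qt p K}
    (hy : y ∈ (unitHom p K).range) (hy1 : y ≠ 1)
    (h : ∀ σ : K ≃ₐ[ℚ] K, actQ p σ y = y ^ (expo hζ σ ^ k)) :
    p ≤ Nat.card (UnitSp (K := K) hζ k) := by
  have hfin := finite_unitSp (K := K) hζ k
  have hord : orderOf y = p := orderOf_eq_prime (pow_p y) hy1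
  have h1 : Nat.card (Fin p) ≤ Nat.card (UnitSp (K := K) hζ k) := by
    refine Nat.card_le_card_of_injective (fun j : Fin p => (⟨y ^ j.val, Subgroup.pow_mem _ hy _,
      fun σ => by rw [map_pow, h σ, ← pow_mul, ← pow_mul, mul_comm]⟩ : UnitSp (K := K) hζ k)) ?_
    intro a b hab
    have h2 : y ^ a.val = y ^ b.val := congrArg Subtype.val hab
    exact Fin.ext (pow_injOn_Iio_orderOf (by rw [hord]; exact a.2) (by rw [hord]; exact b.2) h2)
  rwa [Nat.card_eq_fintype_card, Fintype.card_fin] at h1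

/-- `ζ` is not a `p`-th power in `ℚ(ζ_p)`. -/
theorem qt_zeta_ne (hp2 : p ≠ 2) (hζ : IsPrimitiveRoot ζ p) {z : Kˣ} (hz : (z : K) = ζ) :
    qt p z ≠ 1 := by
  intro h
  obtain ⟨w, hw⟩ := qt_eq_one.mp h
  have hodd := hp.out.odd_of_ne_two hp2
  have hw' : (w : K) ^ p = ζ := by rw [← hz, hw, Units.val_pow_eq_pow_val]
  have hint : IsIntegral ℤ (w : K) := by
    refine IsIntegral.of_pow hp.out.pos ?_
    rw [hw']
    exact hζ.isIntegral hp.out.pos
  obtain ⟨X, hX⟩ : ∃ X : 𝓞 K, (X : K) = w := ⟨⟨w, hint⟩, rfl⟩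
  have hXp : X ^ (p * p) = 1 := by
    apply RingOfIntegers.ext
    rw [RingOfIntegers.coe_eq_algebraMap, RingOfIntegers.coe_eq_algebraMap, map_pow, map_one,
      ← RingOfIntegers.coe_eq_algebraMap, hX, pow_mul, hw', hζ.pow_eq_one]
  obtain ⟨u, hu⟩ : ∃ u : (𝓞 K)ˣ, (u : 𝓞 K) = X :=
    IsUnit.of_pow_eq_one hXp (mul_ne_zero hp.out.ne_zero hp.out.ne_zero)
  have ht : u ∈ Units.torsion K := by
    rw [Units.torsion, CommGroup.mem_torsion, isOfFinOrder_iff_pow_eq_one]
    refine ⟨p * p, mul_pos hp.out.pos hp.out.pos, _root_.Units.ext ?_⟩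
    rw [Units.val_pow_eq_pow_val, hu, hXp, Units.val_one]
  have h5 : u ^ Units.torsionOrder K = 1 := by
    have := pow_card_eq_one' (x := (⟨u, ht⟩ : Units.torsion K))
    exact congrArg (fun x : Units.torsion K => (x : (𝓞 K)ˣ)) this
  rw [IsCyclotomicExtension.Rat.torsionOrder_eq (n := p),
    if_neg (Nat.not_even_iff_odd.mpr hodd)] at h5
  have h6 := congrArg (fun x : (𝓞 K)ˣ => (x : K)) h5
  have h7 : (w : K) ^ (2 * p) = 1 := by
    have h8 : ((u : 𝓞 K) : K) = w := by rw [hu, hX]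
    rw [← h8]
    simpa using h6
  rw [mul_comm, pow_mul, hw'] at h7
  have h9 := (hζ.pow_eq_one_iff_dvd 2).mp h7
  exact hp2 ((Nat.prime_dvd_prime_iff_eq hp.out Nat.prime_two).mp h9)

/-- **The `ω ^ k`-part of `E / E ^ p` has at most `p` elements** (`k` even). -/
theorem card_unitSp_le (hζ : IsPrimitiveRoot ζ p) {k : ℕ} (hk : Even k) (hk2 : 2 ≤ k)
    (hkp : k + 3 ≤ p) : Nat.card (UnitSp (K := K) hζ k) ≤ p := by
  classical
  have hp2 : p ≠ 2 := by omega
  have hpo : p % 2 = 1 := (hp.out.eq_two_or_odd).resolve_left hp2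
  -- the index set
  set r := (p - 3) / 2 with hr
  let e : Option (Fin r) → ℕ := fun o => o.elim 1 fun m => 2 * m.val + 2
  have he : ∀ o, 0 < e o ∧ e o < p - 1 := by
    intro o
    rcases o with _ | m
    · exact ⟨one_pos, by change 1 < p - 1; omega⟩
    · have := m.2
      exact ⟨by change 0 < 2 * m.val + 2; omega, by change 2 * m.val + 2 < p - 1; omega⟩
  have hinj : ∀ o o', e o = e o' → o = o' := by
    intro o o' h
    rcases o with _ | m <;> rcases o' with _ | m'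
    · rfl
    · exfalso
      change 1 = 2 * m'.val + 2 at h
      omega
    · exfalso
      change 2 * m.val + 2 = 1 at h
      omega
    · change 2 * m.val + 2 = 2 * m'.val + 2 at h
      congr 1
      exact Fin.ext (by omega)
  have hfin : ∀ k, Finite (UnitSp (K := K) hζ k) := finite_unitSp hζ
  have hfr : Finite (unitHom p K).range := by
    refine Nat.finite_of_card_ne_zero ?_
    rw [card_unitHom_range hζ]
    exact pow_ne_zero _ hp.out.ne_zero
  -- lower bounds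
  have hlow : ∀ o, p ≤ Nat.card (UnitSp (K := K) hζ (e o)) := by
    intro o
    rcases o with _ | m
    · -- the roots of unity
      change p ≤ Nat.card (UnitSp (K := K) hζ 1)
      set z : Kˣ := Units.mk0 ζ (hζ.ne_zero hp.out.ne_zero) with hz
      have hzp : z ^ p = 1 := Units.ext (by
        rw [Units.val_pow_eq_pow_val, hz, Units.val_mk0, hζ.pow_eq_one, Units.val_one])
      have hzU : z ∈ UT (∅ : Finset (HeightOneSpectrum (𝓞 K))) :=
        mem_UT_of_pow (p := p) (by rw [hzp]; exact Subgroup.one_mem _)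
      refine le_card_unitSp hζ (y := qt p z) ⟨⟨z, hzU⟩, rfl⟩ (qt_zeta_ne hp2 hζ rfl) fun σ => ?_
      rw [actQ_qt, pow_one, ← qt_pow]
      congr 1
      apply Units.ext
      rw [coe_mp, Units.val_pow_eq_pow_val, hz, Units.val_mk0, pow_expo]
    · change p ≤ Nat.card (UnitSp (K := K) hζ (2 * m.val + 2))
      have hm := m.2
      obtain ⟨u, hu⟩ := exists_unit (K := K) hζ (k := 2 * m.val + 2) ⟨m.val + 1, by ring⟩
        (by omega) (by omega)
      rw [qt_eigU] at hu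
      refine le_card_unitSp hζ ?_ hu fun σ => actQ_eigQ hζ _ _ σ
      rw [eigQ_apply]
      exact Subgroup.prod_mem _ fun σ _ => Subgroup.pow_mem _ (mem_range_actQ ⟨u, rfl⟩ σ) _
  -- the product embeds in `E / E ^ p`
  have hprod : Nat.card (∀ o, UnitSp (K := K) hζ (e o)) ≤ Nat.card (unitHom p K).range := by
    refine Nat.card_le_card_of_injective (fun f => (⟨∏ o, (f o).1,
      Subgroup.prod_mem _ fun o _ => (f o).2.1⟩ : (unitHom p K).range)) ?_
    intro f g h
    have h3 : ∏ o, (f o).1 = ∏ o, (g o).1 := congrArg Subtype.val h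
    have key : ∀ (g : ∀ o, UnitSp (K := K) hζ (e o)) (l),
        eigQ hζ (e l) (∏ o, (g o).1) = (g l).1 ^ (p - 1) := by
      intro g l
      rw [map_prod, Finset.prod_eq_single l]
      · exact eigQ_self hζ _ (g l)
      · intro o _ hol
        exact eigQ_ne hζ (he l).1 (he l).2 (he o).1 (he o).2 (fun h => hol (hinj _ _ h).symm) (g o)
      · exact fun h => absurd (Finset.mem_univ l) h
    funext l
    apply Subtype.ext
    refine eq_of_pow_pred (pow_p _) (pow_p _) ?_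
    rw [← key f l, ← key g l, h3]
  rw [Nat.card_pi, card_unitHom_range hζ] at hprod
  -- the number of places
  have hplaces : Fintype.card (InfinitePlace K) = r + 1 := by
    have h10 := InfinitePlace.card_add_two_mul_card_eq_rank K
    have h11 : Fintype.card (InfinitePlace K) =
        InfinitePlace.nrRealPlaces K + InfinitePlace.nrComplexPlaces K :=
      InfinitePlace.card_eq_nrRealPlaces_add_nrComplexPlaces K
    have h12 : Module.finrank ℚ K = p - 1 := by
      have : IsGalois ℚ K := IsCyclotomicExtension.isGalois {p} ℚ K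
      rw [← IsGalois.card_aut_eq_finrank, Nat.card_eq_fintype_card, card_gal hζ]
    have h13 : InfinitePlace.nrRealPlaces K = 0 :=
      IsCyclotomicExtension.Rat.nrRealPlaces_eq_zero K (n := p) (by omega)
    omega
  obtain ⟨m, hm⟩ : ∃ m : Fin r, 2 * m.val + 2 = k := by
    obtain ⟨j, hj⟩ := hk
    exact ⟨⟨j - 1, by omega⟩, by change 2 * (j - 1) + 2 = k; omega⟩
  rw [← Finset.mul_prod_erase univ _ (Finset.mem_univ (some m)), hplaces] at hprod
  have h14 : p ^ r ≤ ∏ o ∈ univ.erase (some m), Nat.card (UnitSp (K := K) hζ (e o)) := by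
    have h15 : (univ.erase (some m)).card = r := by
      rw [Finset.card_erase_of_mem (Finset.mem_univ _), Finset.card_univ, Fintype.card_option,
        Fintype.card_fin, Nat.add_sub_cancel]
    calc p ^ r = ∏ _o ∈ univ.erase (some m), p := by rw [Finset.prod_const, h15]
      _ ≤ _ := Finset.prod_le_prod' fun o _ => hlow o
  have h16 : e (some m) = k := hm
  rw [h16, pow_succ'] at hprod
  have h17 : Nat.card (UnitSp (K := K) hζ k) * p ^ r ≤ p * p ^ r :=
    (Nat.mul_le_mul_left _ h14).trans hprod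
  exact Nat.le_of_mul_le_mul_right h17 (pow_pos hp.out.pos r)

end Fermat.Agent.Cor.Refl
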