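import Fermat.Agent.Corollaries.Refl.Trace
import Fermat.Agent.Corollaries.Refl.Unit
import Fermat.Agent.Corollaries.Refl.PlusMinus
import Fermat.Agent.CFT.EqUnits

/-!
# The even part of the units of `ℚ(ζ_p)` modulo `p`-th powers is not trivial

`exists_unit`: for `k` even, `2 ≤ k ≤ p - 3`, there is a unit `u` of `K = ℚ(ζ_p)` such that
`∏ σ(u) ^ (a(σ⁻¹) ^ k)` is not a `p`-th power.
-/

set_option autoImplicit false

noncomputable section

namespace Fermat.Agent.Cor.Refl

open IsDedekindDomain NumberField NumberField.IsCMField Finset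
open Fermat.Agent.Cor.Cat Fermat.Agent.Cor.Stick
open Fermat.Agent.CFT.SUnits Fermat.Agent.CFT Fermat.Agent.CFT.EqUnits

variable {p : ℕ} [hp : Fact p.Prime] {K : Type} [Field K] [NumberField K] {ζ : K}

/-- The projection (up to sign) to the `ω ^ k`-part. -/
def eigU (hζ : IsPrimitiveRoot ζ p) (k : ℕ) (x : Kˣ) : Kˣ :=
  ∏ σ : K ≃ₐ[ℚ] K, mp σ x ^ (expo hζ σ⁻¹ ^ k)

theorem stable_empty : Stable ℚ (∅ : Finset (HeightOneSpectrum (𝓞 K))) :=
  fun _ _ h => absurd h (Finset.notMem_empty _)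

theorem coe_galT' (σ : K ≃ₐ[ℚ] K) (x : UT (∅ : Finset (HeightOneSpectrum (𝓞 K)))) :
    ((galT stable_empty σ x : UT (∅ : Finset (HeightOneSpectrum (𝓞 K)))) : Kˣ) = mp σ (x : Kˣ) :=
  Units.ext rfl

variable [hcyc : IsCyclotomicExtension {p} ℚ K]

/-- **Trace argument.** -/
theorem exists_unit (hζ : IsPrimitiveRoot ζ p) {k : ℕ} (hk : Even k) (hk2 : 2 ≤ k)
    (hkp : k + 3 ≤ p) : ∃ u : UT (∅ : Finset (HeightOneSpectrum (𝓞 K))),
      qt p (eigU hζ k (u : Kˣ)) ≠ 1 := by
  classical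
  have hp2 : p ≠ 2 := by omega
  have hCM : IsCMField K := IsCyclotomicExtension.Rat.isCMField K (S := {p}) ⟨p, rfl, by omega⟩
  by_contra hall
  push Not at hall
  set T : Finset (HeightOneSpectrum (𝓞 K)) := ∅ with hT0
  have hT : Stable ℚ T := stable_empty
  set c : (K ≃ₐ[ℚ] K) → ℕ := fun σ => expo hζ σ⁻¹ ^ k with hc
  -- the sum of the coefficients
  obtain ⟨m, hm⟩ : p ∣ ∑ σ : K ≃ₐ[ℚ] K, c σ := by
    rw [← ZMod.natCast_eq_zero_iff]
    push_cast
    have h1 := sum_expo_inv hζ (fun a => (a : ZMod p) ^ k)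
    rw [sum_pow_eq_zero (fun h => absurd (Nat.le_of_dvd (by omega) h) (by omega))] at h1
    rw [← h1]
    refine Finset.sum_congr rfl fun σ _ => ?_
    rw [hc]
    push_cast
    rfl
  -- the hypothesis for the units
  have hall' : ∀ u : UT T, ∃ v : UT T, ∏ σ : K ≃ₐ[ℚ] K, galT hT σ u ^ c σ = v ^ p := by
    intro u
    obtain ⟨w, hw⟩ := qt_eq_one.mp (hall u)
    have h1 : ((∏ σ : K ≃ₐ[ℚ] K, galT hT σ u ^ c σ : UT T) : Kˣ) = w ^ p := by
      rw [← hw, eigU, Subgroup.val_finsetProd]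
      refine Finset.prod_congr rfl fun σ _ => ?_
      rw [Subgroup.coe_pow]
      rfl
    have hwT : w ∈ UT T := by
      rw [mem_unit_iff]
      intro v hv
      have h2 := (mem_unit_iff T _).mp (∏ σ : K ≃ₐ[ℚ] K, galT hT σ u ^ c σ : UT T).2 v hv
      rw [h1, ord_pow] at h2
      exact (mul_eq_zero.mp h2).resolve_left (by exact_mod_cast hp.out.ne_zero)
    exact ⟨⟨w, hwT⟩, Subtype.ext h1⟩
  -- the operator
  let S : (Pl T → ℝ) →ₗ[ℝ] (Pl T → ℝ) :=
    { toFun := fun f i => ∑ σ : K ≃ₐ[ℚ] K, (c σ : ℝ) * f (galPl hT σ⁻¹ i)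
      map_add' := fun f g => by
        funext i
        simp only [Pi.add_apply, mul_add, Finset.sum_add_distrib]
      map_smul' := fun r f => by
        funext i
        simp only [Pi.smul_apply, smul_eq_mul, RingHom.id_apply, Finset.mul_sum]
        exact Finset.sum_congr rfl fun σ _ => by ring }
  have hSa : ∀ f i, S f i = ∑ σ : K ≃ₐ[ℚ] K, (c σ : ℝ) * f (galPl hT σ⁻¹ i) := fun f i => rfl
  have hLam : ∀ (σ : K ≃ₐ[ℚ] K) (x : Additive (UT T) × ℤ) (i : Pl T),
      Lam T x (galPl hT σ⁻¹ i) = Lam T (Additive.ofMul (galT hT σ x.1.toMul), x.2) i := by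
    intro σ x i
    rw [← Lam_gal hT σ x (galPl hT σ⁻¹ i)]
    rcases i with w | v
    · rw [galPl_inl, galPl_inl, smul_inv_smul]
    · exact absurd v.2 (Finset.notMem_empty _)
  obtain ⟨N, hN⟩ := trace_mem (Lam T) (span_Lam T) (finrank_unitsProd T) S (p := p) (fun x => by
    obtain ⟨v, hv⟩ := hall' x.1.toMul
    refine ⟨(Additive.ofMul v, m * x.2), ?_⟩
    have h1 : S (Lam T x) = Lam T (∑ σ : K ≃ₐ[ℚ] K,
        c σ • ((Additive.ofMul (galT hT σ x.1.toMul), x.2) : Additive (UT T) × ℤ)) := by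
      funext i
      rw [hSa, map_sum, Finset.sum_apply]
      refine Finset.sum_congr rfl fun σ _ => ?_
      rw [map_nsmul, Pi.smul_apply, nsmul_eq_mul, hLam]
    have h2 : (∑ σ : K ≃ₐ[ℚ] K,
        c σ • ((Additive.ofMul (galT hT σ x.1.toMul), x.2) : Additive (UT T) × ℤ)) =
        p • ((Additive.ofMul v, m * x.2) : Additive (UT T) × ℤ) := by
      refine Prod.ext ?_ ?_
      · rw [Prod.fst_sum, Prod.smul_fst]
        change _ = p • Additive.ofMul v
        rw [← ofMul_pow, ← hv, ofMul_prod]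
        refine Finset.sum_congr rfl fun σ _ => ?_
        rw [Prod.smul_fst, ofMul_pow]
      · rw [Prod.snd_sum, Prod.smul_snd]
        change _ = p • (m * x.2)
        have h3 : ∀ σ : K ≃ₐ[ℚ] K,
            (c σ • ((Additive.ofMul (galT hT σ x.1.toMul), x.2) : Additive (UT T) × ℤ)).2 =
            (c σ : ℤ) * x.2 := fun σ => by rw [Prod.smul_snd, nsmul_eq_mul]
        rw [Finset.sum_congr rfl fun σ _ => h3 σ, ← Finset.sum_mul, nsmul_eq_mul, ← mul_assoc]
        congr 1
        exact_mod_cast hm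
    rw [h1, h2, map_nsmul, ← Nat.cast_smul_eq_nsmul ℝ])
  -- the trace
  set J : K ≃ₐ[ℚ] K := (complexConj K).restrictScalars ℚ with hJd
  have hJc : ∀ x, J x = complexConj K x := fun x => rfl
  have hJζ : J ζ = ζ⁻¹ := by
    rw [hJc]
    exact eq_inv_of_mul_eq_one_left (Kum.complexConj_root hζ.pow_eq_one)
  have hJ : (expo hζ J : ZMod p) = -1 := by
    obtain ⟨J', hJ', hJ'e⟩ := Stick.exists_conj hζ
    have h1 : expo hζ J = expo hζ J' := by
      refine hζ.pow_inj (expo_lt hζ J) (expo_lt hζ J') ?_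
      rw [pow_expo, pow_expo, hJζ, hJ']
    rw [h1, hJ'e]
  have hJinv : J⁻¹ = J := by
    refine AlgEquiv.ext fun x => ?_
    have h1 : J (J x) = x := by
      rw [hJc, hJc]
      exact complexConj_apply_apply K x
    have h2 : J⁻¹ (J (J x)) = J x := J.symm_apply_apply _
    rw [h1] at h2
    exact h2
  have h20 : (2 : ZMod p) ≠ 0 := by
    intro h
    have h7 : ((2 : ℕ) : ZMod p) = 0 := by exact_mod_cast h
    rw [ZMod.natCast_eq_zero_iff] at h7
    exact hp2 ((Nat.prime_dvd_prime_iff_eq hp.out Nat.prime_two).mp h7)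
  have hJ1 : J ≠ 1 := by
    intro h
    rw [h, expo_one] at hJ
    apply h20
    push_cast at hJ
    linear_combination hJ
  have hfix : ∀ (σ : K ≃ₐ[ℚ] K) (w : InfinitePlace K), σ⁻¹ • w = w ↔ σ = 1 ∨ σ = J := by
    intro σ w
    have h1 : ComplexEmbedding.IsConj (k := ℚ) w.embedding J := by
      have h2 := isConj_complexConj K w.embedding
      exact h2
    have h3 := InfinitePlace.mem_stabilizer_mk_iff (k := ℚ) w.embedding σ⁻¹
    rw [InfinitePlace.mk_embedding, MulAction.mem_stabilizer_iff, ← h1.ext_iff, inv_eq_one,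
      eq_comm (a := J), inv_eq_iff_eq_inv, hJinv] at h3
    exact h3
  have htr : LinearMap.trace ℝ _ S = Fintype.card (Pl T) * ((c 1 : ℝ) + c J) := by
    rw [trace_eq_sum, Finset.sum_congr rfl (g := fun _ => (c 1 : ℝ) + c J), Finset.sum_const,
      Finset.card_univ, nsmul_eq_mul]
    intro i _
    rcases i with w | v
    · rw [hSa]
      have h4 : ∀ σ : K ≃ₐ[ℚ] K, (c σ : ℝ) * (Pi.single (Sum.inl w) 1 : Pl T → ℝ)
          (galPl hT σ⁻¹ (Sum.inl w)) = if σ = 1 ∨ σ = J then (c σ : ℝ) else 0 := by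
        intro σ
        rw [galPl_inl, Pi.single_apply]
        by_cases h : σ = 1 ∨ σ = J
        · rw [if_pos h, if_pos (by rw [(hfix σ w).mpr h]), mul_one]
        · rw [if_neg h, if_neg (fun h' => h ((hfix σ w).mp (Sum.inl_injective h'))), mul_zero]
      rw [Finset.sum_congr rfl fun σ _ => h4 σ, ← Finset.sum_filter]
      have h5 : (univ.filter fun σ : K ≃ₐ[ℚ] K => σ = 1 ∨ σ = J) = {1, J} := by
        ext σ
        simp
      rw [h5, Finset.sum_pair hJ1.symm]
    · exact absurd v.2 (Finset.notMem_empty _)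
  rw [hN] at htr
  have h6 : (p : ℤ) * N = Fintype.card (Pl T) * ((c 1 : ℤ) + c J) := by exact_mod_cast htr
  have h7 : ((Fintype.card (Pl T) : ℕ) : ZMod p) * (((c 1 : ℕ) : ZMod p) + (c J : ℕ)) = 0 := by
    have h8 := congrArg (Int.cast : ℤ → ZMod p) h6
    push_cast at h8
    rw [← h8, CharP.cast_eq_zero, zero_mul]
  have hc1 : ((c 1 : ℕ) : ZMod p) = 1 := by
    rw [hc]
    simp only [inv_one, expo_one, one_pow, Nat.cast_one]
  have hcJ : ((c J : ℕ) : ZMod p) = 1 := by
    have : c J = expo hζ J ^ k := by rw [hc]; simp only [hJinv]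
    rw [this]
    push_cast
    rw [hJ, hk.neg_one_pow]
  rw [hc1, hcJ] at h7
  have h8 : ((Fintype.card (Pl T) : ℕ) : ZMod p) = 0 := by
    refine (mul_eq_zero.mp h7).resolve_right ?_
    intro h
    apply h20
    linear_combination h
  rw [ZMod.natCast_eq_zero_iff] at h8
  have h9 : Fintype.card (Pl T) = Fintype.card (InfinitePlace K) := by
    rw [Fintype.card_sum, Fintype.card_coe, hT0, Finset.card_empty, add_zero]
  have h10 := InfinitePlace.card_add_two_mul_card_eq_rank K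
  have h11 : Fintype.card (InfinitePlace K) =
      InfinitePlace.nrRealPlaces K + InfinitePlace.nrComplexPlaces K :=
    InfinitePlace.card_eq_nrRealPlaces_add_nrComplexPlaces K
  have h12 : Module.finrank ℚ K = p - 1 := by
    have : IsGalois ℚ K := IsCyclotomicExtension.isGalois {p} ℚ K
    rw [← IsGalois.card_aut_eq_finrank, Nat.card_eq_fintype_card, card_gal hζ]
  have h13 : 0 < Fintype.card (InfinitePlace K) := Fintype.card_pos
  rw [h9] at h8
  have h14 := Nat.le_of_dvd h13 h8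
  omega

end Fermat.Agent.Cor.Refl
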