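import Fermat.Agent.Corollaries.Refl.UnitCount
import Fermat.Agent.Corollaries.Refl.Real
import Fermat.Agent.Corollaries.Stick.Relative

/-!
# Leopoldt's reflection theorem for `ℚ(ζ_p)`: both inequalities

`A_k` is the `ω ^ k`-part of `Cl(ℚ(ζ_p))[p]`, `k` even, `2 ≤ k ≤ p - 3`.

* `leopoldt`: `#A_k ≤ #A_{p-k} ≤ p #A_k`;
* `card_le_of_not_dvd_real`: if `p` does not divide the class number of the real subfield
  (Vandiver's conjecture), then `#A_{p-k} ≤ p`: the odd eigenspaces are cyclic.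
-/

set_option autoImplicit false

noncomputable section

namespace Fermat.Agent.Cor.Refl

open IsDedekindDomain NumberField
open Fermat.Agent.Cor.CFTP
open Fermat.Agent.Cor.Cat Fermat.Agent.Cor.Stick
open Fermat.Agent.CFT Fermat.Agent.CFT.SUnits Fermat.Agent.CFT.EqUnits

variable {p : ℕ} [hp : Fact p.Prime] {K : Type} [Field K] [NumberField K] {ζ : K}

omit hp in
/-- Two radicals with the same ideal class differ by a unit. -/
theorem mem_range_of_classOf {b b' : Kˣ} {D D' : HeightOneSpectrum (𝓞 K) →₀ ℤ}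
    (hD : div b = p • D) (hD' : div b' = p • D')
    (h : classOf (Multiplicative.ofAdd D) = classOf (Multiplicative.ofAdd D')) :
    qt p b * (qt p b')⁻¹ ∈ (unitHom p K).range := by
  have h2 : classOf (Multiplicative.ofAdd (D - D')) = 1 := by
    rw [ofAdd_sub, map_div, h, div_self']
  obtain ⟨x, hx⟩ := (classOf_eq_one_iff _).mp h2
  have hx' : div x = D - D' := hx
  set u' : Kˣ := b * (b'⁻¹ * (x⁻¹) ^ p) with hu'
  have hdiv : div (R := 𝓞 K) u' = 0 := by
    rw [hu', SUnits.div_mul, SUnits.div_mul, SUnits.div_inv, SUnits.div_pow, SUnits.div_inv, hD,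
      hD', hx', neg_sub, smul_sub]
    abel
  have huU : u' ∈ UT (∅ : Finset (HeightOneSpectrum (𝓞 K))) := by
    rw [mem_unit_iff]
    intro v _
    rw [← div_apply, hdiv]
    rfl
  refine ⟨⟨u', huU⟩, ?_⟩
  rw [unitHom_apply]
  change qt p u' = _
  rw [hu', qt_mul, qt_mul_pow]
  rfl

variable [hcyc : IsCyclotomicExtension {p} ℚ K]

/-- **The upper bound**: `#A_{p-k} ≤ p #A_k`, `k` even. -/
theorem reflection_upper (hζ : IsPrimitiveRoot ζ p) {k : ℕ} (hk : Even k) (hk2 : 2 ≤ k)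
    (hkp : k + 3 ≤ p) :
    Nat.card (EigSp (K := K) hζ (p - k)) ≤ p * Nat.card (EigSp (K := K) hζ k) := by
  classical
  have hp2 : p ≠ 2 := by omega
  let _ : CommGroup (K ≃ₐ[ℚ] K) :=
    { (inferInstance : Group (K ≃ₐ[ℚ] K)) with mul_comm := mul_comm_gal hζ }
  refine (card_eigen_le (p := p) (fun σ : K ≃ₐ[ℚ] K => (gal σ).toMonoidHom)
    (fun σ τ x => gal_mul σ τ x) (fun x => gal_one x) (a := fun σ => expo hζ σ ^ (p - k))
    (fun σ τ => ?_) (by
      rw [card_gal hζ]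
      exact Nat.not_dvd_of_pos_of_lt (by omega) (by omega))).trans ?_
  · push_cast
    rw [← mul_pow]
    congr 1
    rw [natCast_expo, natCast_expo, natCast_expo, ← Units.val_mul, ← map_mul]
  obtain ⟨i⟩ : Nonempty (K →+* AlgebraicClosure ℚ) :=
    ⟨(IsAlgClosed.lift (R := ℚ) (S := K) (M := AlgebraicClosure ℚ)).toRingHom⟩
  choose b hRad hord using fun χ : ClassGroup (𝓞 K) →* C p => exists_rad hp2 hζ i χ
  choose D hD using fun χ => exists_root (hord χ)
  let X : Type := {f : ClassGroup (𝓞 K) →* C p // ∀ (σ : K ≃ₐ[ℚ] K) x,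
    f (gal σ x) = f x ^ (expo hζ σ ^ (p - k))}
  have key : ∀ χ : X, ∀ σ : K ≃ₐ[ℚ] K,
      qt p (mp σ (b χ.1)) = qt p (b χ.1) ^ (expo hζ σ ^ k) := by
    intro χ σ
    have h := qt_mp hζ (by omega) χ.2 (hRad χ.1) σ
    rwa [show p - (p - k) = k by omega] at h
  let Φ : X → EigSp (K := K) hζ k := fun χ => ⟨classOf (Multiplicative.ofAdd (D χ.1)),
    pow_classOf (hD χ.1), fun σ => gal_classOf (hD χ.1) (key χ σ)⟩
  have : Nonempty X := ⟨⟨1, fun σ x => by
    rw [MonoidHom.one_apply, MonoidHom.one_apply, one_pow]⟩⟩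
  have hΦ : ∀ χ : X, Φ (Function.invFun Φ (Φ χ)) = Φ χ := fun χ =>
    Function.invFun_eq ⟨χ, rfl⟩
  let u : X → X → Qt p K := fun χ χ' => qt p (b χ.1) * (qt p (b χ'.1))⁻¹
  have hu : ∀ χ χ' : X, Φ χ = Φ χ' → u χ χ' ∈ (unitHom p K).range ∧
      ∀ σ : K ≃ₐ[ℚ] K, actQ p σ (u χ χ') = u χ χ' ^ (expo hζ σ ^ k) := by
    intro χ χ' h
    refine ⟨mem_range_of_classOf (hD χ.1) (hD χ'.1) (congrArg Subtype.val h), fun σ => ?_⟩
    change actQ p σ (qt p (b χ.1) * (qt p (b χ'.1))⁻¹) = _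
    rw [map_mul, map_inv, actQ_qt, actQ_qt, key, key, mul_pow, inv_pow]
  have hfin : Finite (UnitSp (K := K) hζ k) := finite_unitSp hζ k
  have h1 : Nat.card X ≤ Nat.card (UnitSp (K := K) hζ k × EigSp (K := K) hζ k) := by
    refine Nat.card_le_card_of_injective (fun χ => (⟨u χ (Function.invFun Φ (Φ χ)),
      hu χ _ (hΦ χ).symm⟩, Φ χ)) ?_
    intro χ χ' h
    have h2 : Φ χ = Φ χ' := congrArg Prod.snd h
    have h3 : u χ (Function.invFun Φ (Φ χ)) = u χ' (Function.invFun Φ (Φ χ')) :=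
      congrArg (fun z : UnitSp (K := K) hζ k × EigSp (K := K) hζ k => z.1.1) h
    rw [h2] at h3
    have h4 : qt p (b χ.1) = qt p (b χ'.1) := mul_right_cancel h3
    obtain ⟨c, hc⟩ := qt_eq.mp h4
    exact Subtype.ext ((hRad χ.1).inj hζ (hRad χ'.1) hc)
  rw [Nat.card_prod] at h1
  exact h1.trans (Nat.mul_le_mul_right _ (card_unitSp_le hζ hk hk2 hkp))

/-- **Leopoldt's reflection theorem** (1958) for `ℚ(ζ_p)`: `#A_k ≤ #A_{p-k} ≤ p #A_k` for `k` even,
`2 ≤ k ≤ p - 3`. -/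
theorem leopoldt (hζ : IsPrimitiveRoot ζ p) {k : ℕ} (hk : Even k) (hk2 : 2 ≤ k)
    (hkp : k + 3 ≤ p) :
    Nat.card (EigSp (K := K) hζ k) ≤ Nat.card (EigSp (K := K) hζ (p - k)) ∧
      Nat.card (EigSp (K := K) hζ (p - k)) ≤ p * Nat.card (EigSp (K := K) hζ k) :=
  ⟨reflection hζ hk hk2 hkp, reflection_upper hζ hk hk2 hkp⟩

/-- If an even eigenspace is not trivial, `p` divides the class number of the real subfield. -/
theorem dvd_classNumber_real (hζ : IsPrimitiveRoot ζ p) {F : Type*} [Field F]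
    [NumberField F] [Algebra F K] (h2 : Module.finrank F K = 2) {J : K ≃ₐ[ℚ] K}
    (hJζ : J ζ = ζ⁻¹) (hJF : ∀ x : F, J (algebraMap F K x) = algebraMap F K x) {k : ℕ}
    (hk : Even k) (hk2 : 2 ≤ k) (hkp : k + 3 ≤ p) {C : ClassGroup (𝓞 K)} (hC1 : C ≠ 1)
    (hCp : C ^ p = 1) (hC : ∀ σ : K ≃ₐ[ℚ] K, gal σ C = C ^ (expo hζ σ ^ k)) :
    p ∣ classNumber F := by
  have hp2 : p ≠ 2 := by omega
  have hpo : p % 2 = 1 := (hp.out.eq_two_or_odd).resolve_left hp2
  have hJ : (expo hζ J : ZMod p) = -1 := by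
    obtain ⟨J', hJ', hJ'e⟩ := Stick.exists_conj hζ
    have h1 : expo hζ J = expo hζ J' := by
      refine hζ.pow_inj (expo_lt hζ J) (expo_lt hζ J') ?_
      rw [pow_expo, pow_expo, hJζ, hJ']
    rw [h1, hJ'e]
  have hJ1 : J ≠ 1 := by
    rintro rfl
    rw [AlgEquiv.one_apply] at hJζ
    have h3 : ζ ^ 2 = 1 := by
      rw [sq]
      nth_rewrite 1 [hJζ]
      exact inv_mul_cancel₀ (hζ.ne_zero hp.out.ne_zero)
    have h9 := (hζ.pow_eq_one_iff_dvd 2).mp h3
    exact hp2 ((Nat.prime_dvd_prime_iff_eq hp.out Nat.prime_two).mp h9)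
  have hJC : gal J C = C := by
    rw [hC J]
    conv_rhs => rw [← pow_one C]
    refine pow_eq_pow_of_cast hCp ?_
    push_cast
    rw [hJ, hk.neg_one_pow]
  obtain ⟨c, hc⟩ := mul_gal_mem_range (F := F) hζ h2 hJ1 hJF C
  rw [hJC] at hc
  -- `C ^ 2` comes from the subfield and has order `p`
  have hCord : orderOf C = p := orderOf_eq_prime hCp hC1
  have h3 : orderOf (C * C) = p := by
    refine orderOf_eq_prime (by rw [mul_pow, hCp, one_mul]) fun h4 => ?_
    have h5 : orderOf C ∣ 2 := orderOf_dvd_of_pow_eq_one (by rw [sq, h4])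
    rw [hCord] at h5
    exact hp2 ((Nat.prime_dvd_prime_iff_eq hp.out Nat.prime_two).mp h5)
  have h4 : p ∣ orderOf c := by
    rw [← h3, ← hc]
    exact orderOf_map_dvd _ c
  refine h4.trans ?_
  rw [classNumber, ← Nat.card_eq_fintype_card]
  exact orderOf_dvd_natCard c

/-- **Vandiver's conjecture and the odd eigenspaces**: if `p` does not divide the class number of
the real subfield, then the `ω ^ j`-part of `Cl(ℚ(ζ_p))[p]`, `j = p - k` odd, has at most `p`
elements (is cyclic). -/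
theorem card_le_of_not_dvd_real (hζ : IsPrimitiveRoot ζ p) {F : Type*} [Field F]
    [NumberField F] [Algebra F K] (h2 : Module.finrank F K = 2) {J : K ≃ₐ[ℚ] K}
    (hJζ : J ζ = ζ⁻¹) (hJF : ∀ x : F, J (algebraMap F K x) = algebraMap F K x) {k : ℕ}
    (hk : Even k) (hk2 : 2 ≤ k) (hkp : k + 3 ≤ p) (h : ¬ p ∣ classNumber F) :
    Nat.card (EigSp (K := K) hζ (p - k)) ≤ p := by
  have h1 := reflection_upper (K := K) hζ hk hk2 hkp
  have h3 : Nat.card (EigSp (K := K) hζ k) = 1 := by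
    rw [Nat.card_eq_one_iff_unique]
    have h4 : ∀ z : EigSp (K := K) hζ k, z.1 = 1 := by
      intro z
      by_contra hz
      exact h (dvd_classNumber_real hζ h2 hJζ hJF hk hk2 hkp hz z.2.1 z.2.2)
    exact ⟨⟨fun x y => Subtype.ext (by rw [h4 x, h4 y])⟩,
      ⟨⟨1, one_pow p, fun σ => by rw [map_one, one_pow]⟩⟩⟩
  rwa [h3, mul_one] at h1

end Fermat.Agent.Cor.Refl
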