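import Fermat.Agent.Corollaries.Refl.Upper
import Fermat.Agent.Corollaries.Refl.Ribet

/-!
# The `p`-rank of the class group of `ℚ(ζ_p)` under Vandiver's conjecture

`card_le_of_not_dvd`: if `p` does not divide the class number of the real subfield, then
`#Cl(ℚ(ζ_p))[p] ≤ p ^ i(p)`, where `i(p)` is the index of irregularity (the number of the Bernoulli
numbers `B_2, B_4, …, B_{p-3}` whose numerator is divisible by `p`).
`card_eq_of_not_dvd_of_lt`: `= p` for the irregular primes `p < 157`.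
-/

set_option autoImplicit false

noncomputable section

namespace Fermat.Agent.Cor.Refl

open NumberField Finset
open Fermat.Agent.Cor.Cat Fermat.Agent.Cor.Stick

variable {p : ℕ} [hp : Fact p.Prime] {K : Type} [Field K] [NumberField K] {ζ : K}
  [hcyc : IsCyclotomicExtension {p} ℚ K]

/-- The index of irregularity of `p`. -/
def irregularityIndex (p : ℕ) : ℕ :=
  by classical exact
    ((range (p - 1)).filter fun k => Even k ∧ 2 ≤ k ∧ (p : ℤ) ∣ (bernoulli k).num).card

/-- **The `p`-rank under Vandiver's conjecture**: if `p ∤ h(ℚ(ζ_p)⁺)` then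
`#Cl(ℚ(ζ_p))[p] ≤ p ^ i(p)`. -/
theorem card_le_of_not_dvd (hp2 : p ≠ 2) (hζ : IsPrimitiveRoot ζ p) {F : Type*} [Field F]
    [NumberField F] [Algebra F K] (h2 : Module.finrank F K = 2) {J : K ≃ₐ[ℚ] K}
    (hJζ : J ζ = ζ⁻¹) (hJF : ∀ x : F, J (algebraMap F K x) = algebraMap F K x)
    (h : ¬ p ∣ classNumber F) :
    Nat.card {C : ClassGroup (𝓞 K) // C ^ p = 1} ≤ p ^ irregularityIndex p := by
  classical
  have hp3 : 3 ≤ p := by
    have := hp.out.two_le
    omega
  have hpo : p % 2 = 1 := (hp.out.eq_two_or_odd).resolve_left hp2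
  -- the product of all eigenspaces
  have h1 : Nat.card {C : ClassGroup (𝓞 K) // C ^ p = 1} ≤
      Nat.card (∀ i : range (p - 1), EigSp (K := K) hζ i.1) := by
    refine Nat.card_le_card_of_injective (fun C i => ⟨eig hζ i.1 C.1, eig_pow hζ i.1 C.2,
      gal_eig hζ i.1 C.2⟩) ?_
    intro C C' hCC
    apply Subtype.ext
    refine eq_of_pow_pred C.2 C'.2 ?_
    rw [← prod_eig hζ C.2, ← prod_eig hζ C'.2]
    refine Finset.prod_congr rfl fun i hi => ?_
    exact congrArg Subtype.val (congrFun hCC ⟨i, hi⟩)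
  refine h1.trans ?_
  rw [Nat.card_pi, Finset.prod_coe_sort (range (p - 1)) fun i => Nat.card (EigSp (K := K) hζ i)]
  -- the single eigenspaces
  have htriv : ∀ i, i < p - 1 → ¬ (Odd i ∧ 3 ≤ i ∧ (p : ℤ) ∣ (bernoulli (p - i)).num) →
      Nat.card (EigSp (K := K) hζ i) = 1 := by
    intro i hi hno
    rw [Nat.card_eq_one_iff_unique]
    have h4 : ∀ z : EigSp (K := K) hζ i, z.1 = 1 := by
      intro z
      by_contra hz
      rcases dvd_bernoulli_of_eigen hp2 hζ hi hz z.2.1 z.2.2 with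
        ⟨a1, a2, a3, a4⟩ | ⟨a1, a2, a3, a4⟩
      · exact h (dvd_classNumber_real hζ h2 hJζ hJF a1 a2 a3 hz z.2.1 z.2.2)
      · exact hno ⟨a1, a2, a4⟩
    exact ⟨⟨fun x y => Subtype.ext (by rw [h4 x, h4 y])⟩,
      ⟨⟨1, one_pow p, fun σ => by rw [map_one, one_pow]⟩⟩⟩
  have hle : ∀ i ∈ range (p - 1), Nat.card (EigSp (K := K) hζ i) ≤
      if Odd i ∧ 3 ≤ i ∧ (p : ℤ) ∣ (bernoulli (p - i)).num then p else 1 := by
    intro i hi
    rw [mem_range] at hi
    split_ifs with hc
    · obtain ⟨c1, c2, c3⟩ := hc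
      have hk : Even (p - i) := by
        obtain ⟨j, rfl⟩ := c1
        exact ⟨(p - (2 * j + 1)) / 2, by omega⟩
      have h5 := card_le_of_not_dvd_real (K := K) hζ h2 hJζ hJF (k := p - i) hk
        (by obtain ⟨j, rfl⟩ := c1; omega) (by omega) h
      rwa [show p - (p - i) = i by omega] at h5
    · exact (htriv i hi hc).le
  refine (Finset.prod_le_prod' hle).trans ?_
  rw [← Finset.prod_filter, Finset.prod_const]
  refine Nat.pow_le_pow_right hp.out.pos ?_
  rw [irregularityIndex]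
  refine Finset.card_le_card_of_injOn (fun i => p - i) (fun i hi => ?_) (fun i hi j hj hij => ?_)
  · rw [Finset.mem_coe, mem_filter, mem_range] at hi
    rw [Finset.mem_coe, mem_filter, mem_range]
    obtain ⟨c0, c1, c2, c3⟩ := hi
    obtain ⟨j, rfl⟩ := c1
    change p - (2 * j + 1) < p - 1 ∧ Even (p - (2 * j + 1)) ∧ 2 ≤ p - (2 * j + 1) ∧ _
    exact ⟨by omega, ⟨(p - (2 * j + 1)) / 2, by omega⟩, by omega, c3⟩
  · rw [Finset.mem_coe, mem_filter, mem_range] at hi hj
    have : p - i = p - j := hij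
    omega

/-- **The irregular primes `p < 157`**: if `p ∣ h(ℚ(ζ_p))` but `p ∤ h(ℚ(ζ_p)⁺)`, then exactly `p`
classes of `ℚ(ζ_p)` have order dividing `p`. -/
theorem card_eq_of_not_dvd_of_lt (hp157 : p < 157) (hp2 : p ≠ 2) (hζ : IsPrimitiveRoot ζ p)
    {F : Type*} [Field F] [NumberField F] [Algebra F K] (h2 : Module.finrank F K = 2)
    {J : K ≃ₐ[ℚ] K} (hJζ : J ζ = ζ⁻¹) (hJF : ∀ x : F, J (algebraMap F K x) = algebraMap F K x)
    (h : ¬ p ∣ classNumber F) (hK : p ∣ classNumber K) :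
    Nat.card {C : ClassGroup (𝓞 K) // C ^ p = 1} = p := by
  classical
  refine le_antisymm ?_ ?_
  · have h1 := card_le_of_not_dvd hp2 hζ h2 hJζ hJF h
    refine h1.trans ?_
    have h3 : irregularityIndex p ≤ 1 := by
      rw [irregularityIndex, Finset.card_le_one]
      intro k hk l hl
      rw [mem_filter, mem_range] at hk hl
      have e : ∀ k, k < p - 1 ∧ Even k ∧ 2 ≤ k ∧ (p : ℤ) ∣ (bernoulli k).num → k + 3 ≤ p := by
        rintro k ⟨a1, a2, a3, -⟩
        have hpo : p % 2 = 1 := (hp.out.eq_two_or_odd).resolve_left hp2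
        obtain ⟨j, rfl⟩ := a2
        omega
      exact eq_of_mem_irrPairs hp157
        ((dvd_num_bernoulli_iff_of_lt p hp2 (by omega) hl.2.1 hl.2.2.1 (e l hl)).mp hl.2.2.2)
        ((dvd_num_bernoulli_iff_of_lt p hp2 (by omega) hk.2.1 hk.2.2.1 (e k hk)).mp hk.2.2.2)
    calc p ^ irregularityIndex p ≤ p ^ 1 := Nat.pow_le_pow_right hp.out.pos h3
      _ = p := pow_one p
  · obtain ⟨C, hC⟩ := exists_prime_orderOf_dvd_card (G := ClassGroup (𝓞 K)) p hK
    have hCp : C ^ p = 1 := by rw [← hC, pow_orderOf_eq_one]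
    have h1 : Nat.card (Fin p) ≤ Nat.card {C : ClassGroup (𝓞 K) // C ^ p = 1} := by
      refine Nat.card_le_card_of_injective (fun j : Fin p => (⟨C ^ j.val, by
        rw [← pow_mul, mul_comm, pow_mul, hCp, one_pow]⟩ :
          {C : ClassGroup (𝓞 K) // C ^ p = 1})) ?_
      intro a b hab
      have h2 : C ^ a.val = C ^ b.val := congrArg Subtype.val hab
      exact Fin.ext (pow_injOn_Iio_orderOf (by rw [hC]; exact a.2) (by rw [hC]; exact b.2) h2)
    rwa [Nat.card_eq_fintype_card, Fintype.card_fin] at h1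

end Fermat.Agent.Cor.Refl
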